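import Fermat.Agent.WeylChar.GroupRing
import Fermat.Agent.HighestWeight.Integrable

/-!
# Weight multiplicities

The formal character of a module with a basis of weight vectors, traces weight by weight, and the
invariance of multiplicities under reflections.
-/

set_option autoImplicit false
set_option linter.unusedSectionVars false

noncomputable section

namespace FA.WeylChar

open LieModule Module LieAlgebra LieAlgebra.IsKilling FA.HighestWeight

attribute [local instance 100] LieRing.ofAssociativeRing

section Sl2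

variable {K L M : Type*} [Field K] [CharZero K] [LieRing L] [LieAlgebra K L] [AddCommGroup M]
  [Module K M] [LieRingModule L M] [LieModule K L M] {h e f : L}

lemma lie_e_pow_f_of_eigen (t : IsSl2Triple h e f) {x : M} {m : K} (hx : ⁅h, x⁆ = m • x) (k : ℕ) :
    ⁅e, (toEnd K L M f ^ (k + 1)) x⁆ = (toEnd K L M f ^ (k + 1)) ⁅e, x⁆ +
      (((k : K) + 1) * (m - (k : K))) • (toEnd K L M f ^ k) x := by
  have hh : ∀ j : ℕ, ⁅h, (toEnd K L M f ^ j) x⁆ = (m - 2 * (j : K)) • (toEnd K L M f ^ j) x := by
    intro j
    induction j with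
    | zero => simpa using hx
    | succ j ih =>
      rw [toEnd_pow_succ_apply, leibniz_lie h f, ih, t.lie_lie_smul_f K, neg_lie, smul_lie,
        lie_smul, Nat.cast_succ]
      module
  induction k with
  | zero =>
    rw [toEnd_pow_succ_apply, pow_zero, Module.End.one_apply, leibniz_lie e f, t.lie_e_f, hx,
      toEnd_pow_succ_apply, pow_zero, Module.End.one_apply]
    rw [add_comm]
    simp
  | succ k ih =>
    rw [toEnd_pow_succ_apply, leibniz_lie e f, t.lie_e_f, hh, ih, lie_add, lie_smul,
      ← toEnd_pow_succ_apply, ← toEnd_pow_succ_apply, Nat.cast_succ]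
    module

/-- On a vector of natural eigenvalue `m` killed by a power of `e`, `f ^ m` is injective. -/
lemma eq_zero_of_pow_f_eq_zero (t : IsSl2Triple h e f) (n : ℕ) :
    ∀ (m : ℕ) (x : M), ⁅h, x⁆ = (m : K) • x → (toEnd K L M e ^ n) x = 0 →
      (toEnd K L M f ^ m) x = 0 → x = 0 := by
  induction n with
  | zero =>
    intro m x _ he _
    simpa using he
  | succ n ih =>
    intro m x hx he hf
    have hy : ⁅h, ⁅e, x⁆⁆ = ((m + 2 : ℕ) : K) • ⁅e, x⁆ := by
      rw [leibniz_lie, t.lie_h_e_smul K, smul_lie, hx, lie_smul, Nat.cast_add, add_smul, add_comm,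
        Nat.cast_ofNat]
    have h1 : (toEnd K L M f ^ (m + 1)) x = 0 := toEnd_pow_eq_zero_of_le hf (by omega)
    have h2 : (toEnd K L M f ^ (m + 1 + 1)) x = 0 := toEnd_pow_eq_zero_of_le hf (by omega)
    have h3 := lie_e_pow_f_of_eigen t hx (m + 1)
    rw [h2, lie_zero, h1, smul_zero, add_zero] at h3
    have hz : ⁅e, x⁆ = 0 := ih (m + 2) _ hy (by rw [← toEnd_pow_succ_apply']; exact he) h3.symm
    by_contra h0
    have P : t.HasPrimitiveVectorWith x (m : K) := ⟨h0, hx, hz⟩
    exact P.pow_toEnd_f_ne_zero_of_eq_nat rfl le_rfl hf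

end Sl2

universe u v

variable {K : Type u} {L : Type v} [Field K] [CharZero K] [LieRing L] [LieAlgebra K L]
  [IsKilling K L] [FiniteDimensional K L]
  {H : LieSubalgebra K L} [H.IsCartanSubalgebra] [IsTriangularizable K H L]
  {V : Type*} [AddCommGroup V] [Module K V] [LieRingModule L V] [LieModule K L V]

variable (V) in
/-- The space of vectors of a weight. -/
def wSpace (μ : Dual K H) : Submodule K V where
  carrier := {v | HasWeight μ v}
  add_mem' := fun {x y} hx hy h => by rw [lie_add, hx h, hy h, smul_add]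
  zero_mem' := fun h => by rw [lie_zero, smul_zero]
  smul_mem' := fun c x hx h => by rw [lie_smul, hx h, smul_comm]

variable (V H) in
/-- The formal character. -/
def formalChar : WRing H :=
  ∑ᶠ μ : Dual K H, AddMonoidAlgebra.single μ (finrank K (wSpace V μ) : K)

/-- A basis of weight vectors. -/
structure WeightBasis (κ : Type*) (H : LieSubalgebra K L) (V : Type*) [AddCommGroup V] [Module K V]
    [LieRingModule L V] [H.IsCartanSubalgebra] where
  /-- The basis. -/
  bv : Basis κ K V
  /-- The weights of its vectors. -/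
  wt : κ → Dual K H
  hasWeight : ∀ i, HasWeight (wt i) (bv i)

variable {κ : Type*} [Fintype κ] (B : WeightBasis κ H V)

lemma repr_lie (h : H) (v : V) (i : κ) :
    B.bv.repr ⁅(h : L), v⁆ i = B.wt i h * B.bv.repr v i := by
  classical
  have hlin : (B.bv.coord i) ∘ₗ toEnd K L V (h : L) = B.wt i h • B.bv.coord i := B.bv.ext fun j => by
    rw [LinearMap.comp_apply, toEnd_apply_apply, B.hasWeight j h, map_smul, LinearMap.smul_apply,
      Basis.coord_apply, Basis.repr_self, Finsupp.single_apply]
    split_ifs with hji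
    · rw [hji]
    · rw [smul_zero, smul_zero]
  exact LinearMap.congr_fun hlin v

lemma repr_eq_zero_of_ne {μ : Dual K H} {v : V} (hv : HasWeight μ v) {i : κ} (hi : B.wt i ≠ μ) :
    B.bv.repr v i = 0 := by
  obtain ⟨h, hh⟩ : ∃ h, B.wt i h ≠ μ h := by
    by_contra hcon
    push Not at hcon
    exact hi (LinearMap.ext hcon)
  have := repr_lie B h v i
  rw [hv h, map_smul, Finsupp.smul_apply, smul_eq_mul, ← sub_eq_zero, ← sub_mul, mul_eq_zero] at this
  exact this.resolve_left (sub_ne_zero.2 (Ne.symm hh))

lemma wSpace_eq_span (μ : Dual K H) :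
    wSpace V μ = Submodule.span K (Set.range fun i : {i : κ // B.wt i = μ} => B.bv i.1) := by
  classical
  refine le_antisymm (fun v hv => ?_) (Submodule.span_le.2 ?_)
  · rw [← B.bv.sum_repr v]
    refine Submodule.sum_mem _ fun i _ => ?_
    by_cases hi : B.wt i = μ
    · exact Submodule.smul_mem _ _ (Submodule.subset_span ⟨⟨i, hi⟩, rfl⟩)
    · rw [repr_eq_zero_of_ne B hv hi, zero_smul]
      exact zero_mem _
  · rintro _ ⟨⟨i, rfl⟩, rfl⟩
    exact B.hasWeight i

lemma finrank_wSpace [DecidableEq (Dual K H)] (μ : Dual K H) :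
    finrank K (wSpace V μ) = (Finset.univ.filter fun i => B.wt i = μ).card := by
  classical
  rw [wSpace_eq_span B μ,
    finrank_span_eq_card (b := fun i : {i : κ // B.wt i = μ} => B.bv i.1)
      (B.bv.linearIndependent.comp _ Subtype.val_injective), Fintype.card_subtype]

lemma formalChar_eq : formalChar H V = ∑ i, ee (B.wt i) := by
  classical
  have hsup : Function.support (fun μ : Dual K H =>
      AddMonoidAlgebra.single μ (finrank K (wSpace V μ) : K)) ⊆
        (Finset.univ.image B.wt : Finset (Dual K H)) := by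
    intro μ hμ
    by_contra hne
    apply hμ
    simp only [Finset.coe_image, Finset.coe_univ, Set.image_univ, Set.mem_range] at hne
    show AddMonoidAlgebra.single μ (finrank K (wSpace V μ) : K) = 0
    rw [finrank_wSpace B, Finset.filter_false_of_mem (fun i _ h => hne ⟨i, h⟩)]
    simp
  rw [formalChar, finsum_eq_sum_of_support_subset _ hsup]
  refine Finset.sum_bij' (fun μ _ => μ) (fun μ _ => μ) (fun μ h => h) (fun μ h => h)
    (fun _ _ => rfl) (fun _ _ => rfl) (fun μ _ => rfl) |>.trans ?_
  rw [← Finset.sum_fiberwise_of_maps_to (g := B.wt) (t := Finset.univ.image B.wt)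
    (fun i hi => Finset.mem_image_of_mem _ hi) (fun i => ee (B.wt i))]
  refine Finset.sum_congr rfl fun μ _ => ?_
  rw [finrank_wSpace B, Finset.sum_congr rfl fun i hi => by rw [(Finset.mem_filter.1 hi).2],
    Finset.sum_const, ee, AddMonoidAlgebra.smul_single, nsmul_one]

include B in
lemma coeff_formalChar (μ : Dual K H) :
    (formalChar H V).coeff μ = (finrank K (wSpace V μ) : K) := by
  classical
  rw [formalChar_eq B, AddMonoidAlgebra.coeff_sum, Finsupp.finsetSum_apply, finrank_wSpace B]
  simp [ee, Finsupp.single_apply]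

/-- The traces of an operator, weight by weight. -/
def wtrace : (Module.End K V) →ₗ[K] WRing H :=
  ∑ i, (AddMonoidAlgebra.lsingle (R := K) (B.wt i)) ∘ₗ
    (B.bv.coord i) ∘ₗ LinearMap.applyₗ (B.bv i)

lemma wtrace_apply (A : Module.End K V) :
    wtrace B A = ∑ i, AddMonoidAlgebra.single (B.wt i) (B.bv.repr (A (B.bv i)) i) := by
  simp [wtrace, LinearMap.sum_apply]

/-- An operator acting on each weight space by a scalar. -/
lemma wtrace_of_scalar {A : Module.End K V} {φ : Dual K H → K}
    (hA : ∀ i, A (B.bv i) = φ (B.wt i) • B.bv i) :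
    wtrace B A = scale φ (formalChar H V) := by
  rw [wtrace_apply, formalChar_eq B, map_sum]
  refine Finset.sum_congr rfl fun i _ => ?_
  rw [hA, map_smul, Basis.repr_self, Finsupp.smul_apply, Finsupp.single_eq_same, ee, scale_single,
    smul_eq_mul]

/-- The projection onto a weight space. -/
def wproj (μ : Dual K H) : Module.End K V :=
  open scoped Classical in B.bv.constr K fun i => if B.wt i = μ then B.bv i else 0

lemma wproj_apply {μ ν : Dual K H} {v : V} (hv : HasWeight μ v) [Decidable (μ = ν)] :
    wproj B ν v = if μ = ν then v else 0 := by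
  classical
  conv_lhs => rw [← B.bv.sum_repr v, map_sum]
  by_cases h : μ = ν
  · rw [if_pos h]
    conv_rhs => rw [← B.bv.sum_repr v]
    refine Finset.sum_congr rfl fun i _ => ?_
    rw [map_smul, wproj, Basis.constr_basis]
    split_ifs with hi
    · rfl
    · rw [repr_eq_zero_of_ne B hv (fun hh => hi (hh.trans h)), zero_smul, zero_smul]
  · rw [if_neg h]
    refine Finset.sum_eq_zero fun i _ => ?_
    rw [map_smul, wproj, Basis.constr_basis]
    split_ifs with hi
    · rw [repr_eq_zero_of_ne B hv (fun hh => h (hh.symm.trans hi)), zero_smul]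
    · rw [smul_zero]

lemma coeff_wtrace (A : Module.End K V) (μ : Dual K H) :
    (wtrace B A).coeff μ = LinearMap.trace K V (A * wproj B μ) := by
  classical
  rw [wtrace_apply, AddMonoidAlgebra.coeff_sum, Finsupp.finsetSum_apply,
    LinearMap.trace_eq_matrix_trace K B.bv, Matrix.trace]
  refine Finset.sum_congr rfl fun i _ => ?_
  rw [Matrix.diag, LinearMap.toMatrix_apply, Module.End.mul_apply, wproj, Basis.constr_basis,
    AddMonoidAlgebra.coeff_single, Finsupp.single_apply]
  split_ifs with h
  · rfl
  · simp

/-- Weight shifts. -/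
def ShiftsBy (A : Module.End K V) (α : Dual K H) : Prop :=
  ∀ (μ : Dual K H) (v : V), HasWeight μ v → HasWeight (μ + α) (A v)

lemma ShiftsBy.proj_comm {A : Module.End K V} {α : Dual K H} (hA : ShiftsBy A α) (μ : Dual K H) :
    wproj B (μ + α) * A = A * wproj B μ := by
  classical
  refine B.bv.ext fun i => ?_
  rw [Module.End.mul_apply, Module.End.mul_apply, wproj_apply B (hA _ _ (B.hasWeight i)),
    wproj_apply B (B.hasWeight i)]
  by_cases h : B.wt i = μ
  · rw [if_pos h, if_pos (by rw [h])]
  · rw [if_neg h, if_neg fun h' => h (add_right_cancel h'), map_zero]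

/-- The cyclicity of the trace, weight by weight. -/
lemma wtrace_mul_comm {A C : Module.End K V} {α : Dual K H}
    (hC : ShiftsBy C (-α)) : wtrace B (C * A) = ee (-α) * wtrace B (A * C) := by
  refine wring_ext fun μ => ?_
  rw [ee, AddMonoidAlgebra.coeff_single_mul_apply, one_mul, neg_neg, coeff_wtrace, coeff_wtrace,
    mul_assoc C A, LinearMap.trace_mul_comm, mul_assoc A (wproj B μ) C,
    mul_assoc A C (wproj B (α + μ))]
  congr 2
  rw [← hC.proj_comm B (α + μ), add_neg_cancel_comm]

lemma shiftsBy_toEnd {α : H.root} {x : L} (hx : x ∈ rootSpace H α.1) :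
    ShiftsBy (toEnd K L V x) (rt α) := fun _ _ hv => hv.lie hx

lemma crt_negRoot (α : H.root) : crt (negRoot α) = -crt α := coroot_neg α.1

include B in
lemma finrank_wSpace_le_of_nat [FiniteDimensional K V] (α : H.root) {μ : Dual K H} {n : ℕ}
    (hn : μ (crt α) = (n : K)) :
    finrank K (wSpace V μ) ≤ finrank K (wSpace V (refl' α μ)) := by
  obtain ⟨e, f, t, he, hf⟩ := exists_triple α
  obtain ⟨N, hN⟩ := exists_pow_e_eq_zero (K := K) (M := V) t
  let F : wSpace V μ →ₗ[K] wSpace V (refl' α μ) :=
    ((toEnd K L V f ^ n) ∘ₗ (wSpace V μ).subtype).codRestrict _ fun x => by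
      have := HasWeight.pow x.2 hf n
      rwa [show μ + (n : K) • rt (negRoot α) = refl' α μ by
        rw [refl', hn, rt_negRoot]; module] at this
  refine LinearMap.finrank_le_finrank_of_injective (f := F)
    ((injective_iff_map_eq_zero F).2 fun x hx => Subtype.ext ?_)
  exact eq_zero_of_pow_f_eq_zero t N n x.1 (by rw [x.2 (crt α), hn])
    (by rw [hN, LinearMap.zero_apply]) (congrArg Subtype.val hx)

include B in
/-- Multiplicities are invariant under reflections. -/
theorem finrank_wSpace_refl' [FiniteDimensional K V] (hint : ∀ i, IsWeightLattice (B.wt i))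
    (α : H.root) (μ : Dual K H) :
    finrank K (wSpace V (refl' α μ)) = finrank K (wSpace V μ) := by
  classical
  have key : ∀ μ : Dual K H, finrank K (wSpace V μ) ≤ finrank K (wSpace V (refl' α μ)) := by
    intro μ
    by_cases hμ : ∃ i, B.wt i = μ
    · obtain ⟨i, rfl⟩ := hμ
      obtain ⟨z, hz⟩ := hint i α
      obtain ⟨n, rfl | rfl⟩ := Int.eq_nat_or_neg z
      · exact finrank_wSpace_le_of_nat B α (by rw [hz, Int.cast_natCast])
      · have h := finrank_wSpace_le_of_nat B (negRoot α) (μ := B.wt i) (n := n)
          (by rw [crt_negRoot, map_neg, hz, Int.cast_neg, neg_neg, Int.cast_natCast])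
        rwa [show refl' (negRoot α) (B.wt i) = refl' α (B.wt i) by
          rw [refl', refl', crt_negRoot, map_neg, rt_negRoot, neg_smul_neg]] at h
    · rw [finrank_wSpace B μ, Finset.filter_false_of_mem (fun i _ h => hμ ⟨i, h⟩),
        Finset.card_empty]
      exact Nat.zero_le _
  exact le_antisymm (by have h := key (refl' α μ); rwa [refl'_refl'] at h) (key μ)

include B in
lemma wact_formalChar [FiniteDimensional K V] (hint : ∀ i, IsWeightLattice (B.wt i))
    (α : H.root) : wact (sref α) (formalChar H V) = formalChar H V := by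
  refine wring_ext fun μ => ?_
  have h := coeff_wact (sref α) (formalChar H V) (refl' α μ)
  rw [sref_apply, refl'_refl'] at h
  rw [h, coeff_formalChar B, coeff_formalChar B, finrank_wSpace_refl' B hint]

/-- An irreducible finite-dimensional module has a basis of weight vectors below the highest
weight. -/
lemma exists_weightBasis [FiniteDimensional K V] [IsIrreducible K L V]
    {b : (rootSystem H).Base} {lam : Dual K H} {v : V} (hv : IsHighestWeight b lam v) :
    ∃ (κ : Type (max u v)) (_ : Fintype κ) (B : WeightBasis κ H V),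
      ∀ i, ∃ l : List (NegRoot b), B.wt i = wordWeight b lam l := by
  obtain ⟨κ, a, -, hsp, hli⟩ := exists_linearIndependent' K (word b v)
  let bv : Basis κ K V := Basis.mk hli (by
    rw [hsp]
    exact fun x _ => mem_wordSpan_of_irreducible hv x)
  have : Finite κ := Module.Finite.finite_basis bv
  refine ⟨κ, Fintype.ofFinite κ, ⟨bv, fun i => wordWeight b lam (a i), fun i => ?_⟩,
    fun i => ⟨a i, rfl⟩⟩
  rw [Basis.mk_apply]
  exact hasWeight_word hv.weight (a i)

end FA.WeylChar
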