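import Fermat.Agent.WeylChar.Weights

/-!
# The Casimir identity for the formal character

The Casimir operator of the Killing form is a scalar on an irreducible module, and taking its trace
weight by weight gives a differential identity for the formal character.
-/

set_option autoImplicit false
set_option linter.unusedSectionVars false

noncomputable section

namespace FA.WeylChar

open LieModule Module LieAlgebra LieAlgebra.IsKilling FA.HighestWeight

attribute [local instance 100] LieRing.ofAssociativeRing

section General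

variable {K L M : Type*} [Field K] [LieRing L] [LieAlgebra K L] [AddCommGroup M]
  [Module K M] [LieRingModule L M] [LieModule K L M] {ι : Type*} [Fintype ι]

/-- The operator of dual families commutes with the action. -/
lemma lie_casimir_comm (x y : ι → L)
    (h₁ : ∀ u, ∑ j, killingForm K L (y j) u • x j = u)
    (h₂ : ∀ u, ∑ j, killingForm K L u (x j) • y j = u) (z : L) (m : M) :
    ⁅z, ∑ i, ⁅x i, ⁅y i, m⁆⁆⁆ = ∑ i, ⁅x i, ⁅y i, ⁅z, m⁆⁆⁆ := by
  have e₁ : ∀ i, ⁅⁅z, x i⁆, ⁅y i, m⁆⁆ =
      ∑ j, killingForm K L (y j) ⁅z, x i⁆ • ⁅x j, ⁅y i, m⁆⁆ := fun i => by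
    conv_lhs => rw [← h₁ ⁅z, x i⁆]
    rw [sum_lie]
    simp only [smul_lie]
  have e₂ : ∀ i, ⁅x i, ⁅⁅z, y i⁆, m⁆⁆ =
      ∑ j, killingForm K L ⁅z, y i⁆ (x j) • ⁅x i, ⁅y j, m⁆⁆ := fun i => by
    conv_lhs => rw [← h₂ ⁅z, y i⁆]
    rw [sum_lie, lie_sum]
    simp only [smul_lie, lie_smul]
  have hzero : ∑ i, (⁅⁅z, x i⁆, ⁅y i, m⁆⁆ + ⁅x i, ⁅⁅z, y i⁆, m⁆⁆) = 0 := by
    simp only [e₁, e₂, Finset.sum_add_distrib]
    rw [Finset.sum_comm, ← Finset.sum_add_distrib]
    refine Finset.sum_eq_zero fun i _ => ?_
    rw [← Finset.sum_add_distrib]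
    refine Finset.sum_eq_zero fun j _ => ?_
    rw [← add_smul]
    show (killingForm K L (y i) ⁅z, x j⁆ + killingForm K L ⁅z, y i⁆ (x j)) • _ = 0
    rw [show killingForm K L ⁅z, y i⁆ (x j) = -killingForm K L (y i) ⁅z, x j⁆ from
      traceForm_apply_lie_apply' K L L z (y i) (x j), add_neg_cancel, zero_smul]
  rw [lie_sum]
  calc ∑ i, ⁅z, ⁅x i, ⁅y i, m⁆⁆⁆
      = ∑ i, ((⁅⁅z, x i⁆, ⁅y i, m⁆⁆ + ⁅x i, ⁅⁅z, y i⁆, m⁆⁆) + ⁅x i, ⁅y i, ⁅z, m⁆⁆⁆) :=
        Finset.sum_congr rfl fun i _ => by
          rw [leibniz_lie z (x i), leibniz_lie z (y i), lie_add, add_assoc]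
    _ = ∑ i, ⁅x i, ⁅y i, ⁅z, m⁆⁆⁆ := by rw [Finset.sum_add_distrib, hzero, zero_add]

end General

universe u v

variable {K : Type u} {L : Type v} [Field K] [CharZero K] [LieRing L] [LieAlgebra K L]
  [IsKilling K L] [FiniteDimensional K L]
  {H : LieSubalgebra K L} [H.IsCartanSubalgebra] [IsTriangularizable K H L]

lemma killing_orth {χ ψ : H → K} {x y : L} (hx : x ∈ rootSpace H χ) (hy : y ∈ rootSpace H ψ)
    (h : χ + ψ ≠ 0) : killingForm K L x y = 0 :=
  killingForm_apply_eq_zero_of_mem_rootSpace_of_add_ne_zero K L H hx hy h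

lemma cartan_mem_rootSpace (h : H) : (h : L) ∈ rootSpace H (0 : H → K) := by
  rw [rootSpace_zero_eq]
  exact h.2

lemma killing_root_root {α β : H.root} {x y : L} (hx : x ∈ rootSpace H α.1)
    (hy : y ∈ rootSpace H β.1) (h : β ≠ negRoot α) : killingForm K L x y = 0 :=
  killing_orth hx hy fun h0 => h ((rootSystem H).root.injective (by
    show rt β = rt (negRoot α)
    rw [rt_negRoot]
    exact LinearMap.ext fun z => eq_neg_of_add_eq_zero_right (congr_fun h0 z)))

lemma killing_cartan_root (h : H) {α : H.root} {x : L} (hx : x ∈ rootSpace H α.1) :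
    killingForm K L (h : L) x = 0 :=
  killing_orth (cartan_mem_rootSpace h) hx fun h0 => (H.isNonZero_coe_root α) (by simpa using h0)

/-- The Killing pairing of opposite root vectors. -/
def pairing' (α : H.root) : K := killingForm K L (rootVec α) (rootVec (negRoot α))

lemma pairing'_negRoot (α : H.root) : pairing' (negRoot α) = pairing' α := by
  rw [pairing', pairing', negRoot_negRoot]
  exact traceForm_comm K L L _ _

lemma pairing'_ne_zero (α : H.root) : pairing' α ≠ 0 := by
  obtain ⟨e, f, t, he, hf⟩ := exists_triple α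
  obtain ⟨c, rfl⟩ := exists_smul_rootVec he
  obtain ⟨d, rfl⟩ := exists_smul_rootVec hf
  intro h
  apply t.h_ne_zero
  rw [← t.lie_e_f, lie_eq_killingForm_smul_of_mem_rootSpace_of_mem_rootSpace_neg he hf, map_smul,
    map_smul, LinearMap.smul_apply, show killingForm K L (rootVec α) (rootVec (negRoot α)) = 0
      from h, smul_zero, smul_zero, zero_smul]

/-- The root vector dual to `rootVec α` under the Killing form. -/
def dualVec (α : H.root) : L := (pairing' α)⁻¹ • rootVec (negRoot α)

lemma dualVec_mem (α : H.root) : dualVec α ∈ rootSpace H (negRoot α).1 :=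
  (rootSpace H ((negRoot α).1 : H → K)).smul_mem _ (rootVec_mem _)

lemma killing_rootVec_dualVec (α : H.root) : killingForm K L (rootVec α) (dualVec α) = 1 := by
  rw [dualVec, map_smul, smul_eq_mul]
  exact inv_mul_cancel₀ (pairing'_ne_zero α)

lemma lie_rootVec_dualVec (α : H.root) : ⁅rootVec α, dualVec α⁆ = (tElt (rt α) : L) := by
  rw [lie_eq_killingForm_smul_of_mem_rootSpace_of_mem_rootSpace_neg (rootVec_mem α) (dualVec_mem α),
    killing_rootVec_dualVec, one_smul]
  rfl

variable (b : (rootSystem H).Base)

/-- The dual basis of the simple coroots. -/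
def dualCoweight : Basis b.support K H :=
  open scoped Classical in
  LinearMap.BilinForm.dualBasis (traceForm K H L) (traceForm_cartan_nondegenerate K L H)
    b.toCoweightBasis

lemma sum_smul_toCoweightBasis (x : H) :
    ∑ i, traceForm K H L (dualCoweight b i) x • b.toCoweightBasis i = x := by
  classical
  conv_rhs => rw [← b.toCoweightBasis.sum_repr x]
  refine Finset.sum_congr rfl fun i _ => ?_
  congr 1
  conv_lhs => rw [← b.toCoweightBasis.sum_repr x, map_sum]
  simp only [map_smul, smul_eq_mul, dualCoweight, LinearMap.BilinForm.apply_dualBasis_left,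
    mul_ite, mul_one, mul_zero, Finset.sum_ite_eq', Finset.mem_univ, if_true]

lemma sum_smul_dualCoweight (x : H) :
    ∑ i, traceForm K H L x (b.toCoweightBasis i) • dualCoweight b i = x := by
  classical
  conv_rhs => rw [← (dualCoweight b).sum_repr x]
  refine Finset.sum_congr rfl fun i _ => ?_
  congr 1
  exact (LinearMap.BilinForm.dualBasis_repr_apply _ _ x i).symm

lemma kform_eq_sum_coweight (μ ν : Dual K H) :
    kform μ ν = ∑ i, μ (b.toCoweightBasis i) * ν (dualCoweight b i) := by
  rw [kform]
  conv_lhs => rw [← sum_smul_toCoweightBasis b (tElt ν), map_sum]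
  refine Finset.sum_congr rfl fun i _ => ?_
  rw [map_smul, smul_eq_mul, traceForm_comm, ← apply_eq_traceForm, mul_comm]

/-- The first family. -/
def famX : b.support ⊕ H.root → L :=
  Sum.elim (fun i => (b.toCoweightBasis i : L)) rootVec

/-- The dual family. -/
def famY : b.support ⊕ H.root → L :=
  Sum.elim (fun i => (dualCoweight b i : L)) dualVec

lemma famX_expand (u : L) : ∑ j, killingForm K L (famY b j) u • famX b j = u := by
  classical
  let G : L →ₗ[K] L := ∑ j, (killingForm K L (famY b j)).smulRight (famX b j)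
  have hG : ∀ u, G u = ∑ j, killingForm K L (famY b j) u • famX b j := fun u => by
    simp [G, LinearMap.sum_apply]
  have htop := eq_top_of_cartan_of_rootSpace (H := H) (LinearMap.eqLocus G LinearMap.id)
    (fun h => by
      show G (h : L) = (h : L)
      rw [hG, Fintype.sum_sum_type]
      have h1 : ∀ α : H.root, killingForm K L (famY b (Sum.inr α)) (h : L) = 0 := fun α =>
        (traceForm_comm K L L _ _).trans (killing_cartan_root h (dualVec_mem α))
      simp only [h1, zero_smul, Finset.sum_const_zero, add_zero]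
      have := congrArg Subtype.val (sum_smul_toCoweightBasis b h)
      rw [AddSubmonoidClass.coe_finsetSum] at this
      exact this)
    (fun β u hu => by
      show G u = u
      rw [hG, Fintype.sum_sum_type]
      have h1 : ∀ i, killingForm K L (famY b (Sum.inl i)) u = 0 := fun i => killing_cartan_root _ hu
      simp only [h1, zero_smul, Finset.sum_const_zero, zero_add]
      obtain ⟨c, rfl⟩ := exists_smul_rootVec hu
      rw [Finset.sum_eq_single β]
      · show killingForm K L (dualVec β) (c • rootVec β) • rootVec β = _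
        rw [map_smul, traceForm_comm, killing_rootVec_dualVec, smul_eq_mul, mul_one]
      · intro α _ hne
        rw [show killingForm K L (famY b (Sum.inr α)) (c • rootVec β) = 0 from
          killing_root_root (dualVec_mem α) ((rootSpace H (β.1 : H → K)).smul_mem _ (rootVec_mem β))
            (by rw [negRoot_negRoot]; exact Ne.symm hne), zero_smul]
      · simp)
  exact (hG u).symm.trans (Submodule.eq_top_iff'.1 htop u)

lemma famY_expand (u : L) : ∑ j, killingForm K L u (famX b j) • famY b j = u := by
  classical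
  let G : L →ₗ[K] L := ∑ j, ((killingForm K L).flip (famX b j)).smulRight (famY b j)
  have hG : ∀ u, G u = ∑ j, killingForm K L u (famX b j) • famY b j := fun u => by
    simp [G, LinearMap.sum_apply]
  have htop := eq_top_of_cartan_of_rootSpace (H := H) (LinearMap.eqLocus G LinearMap.id)
    (fun h => by
      show G (h : L) = (h : L)
      rw [hG, Fintype.sum_sum_type]
      have h1 : ∀ α : H.root, killingForm K L (h : L) (famX b (Sum.inr α)) = 0 := fun α =>
        killing_cartan_root h (rootVec_mem α)
      simp only [h1, zero_smul, Finset.sum_const_zero, add_zero]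
      have := congrArg Subtype.val (sum_smul_dualCoweight b h)
      rw [AddSubmonoidClass.coe_finsetSum] at this
      exact this)
    (fun β u hu => by
      show G u = u
      rw [hG, Fintype.sum_sum_type]
      have h1 : ∀ i, killingForm K L u (famX b (Sum.inl i)) = 0 := fun i =>
        (traceForm_comm K L L _ _).trans (killing_cartan_root _ hu)
      simp only [h1, zero_smul, Finset.sum_const_zero, zero_add]
      obtain ⟨c, rfl⟩ := exists_smul_rootVec hu
      rw [Finset.sum_eq_single (negRoot β)]
      · show killingForm K L (c • rootVec β) (rootVec (negRoot β)) • dualVec (negRoot β) = _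
        rw [map_smul, LinearMap.smul_apply, dualVec, negRoot_negRoot, pairing'_negRoot, smul_eq_mul,
          smul_smul, mul_assoc]
        show (c * (pairing' β * (pairing' β)⁻¹)) • rootVec β = _
        rw [mul_inv_cancel₀ (pairing'_ne_zero β), mul_one]
      · intro α _ hne
        rw [show killingForm K L (c • rootVec β) (famX b (Sum.inr α)) = 0 from
          killing_root_root ((rootSpace H (β.1 : H → K)).smul_mem _ (rootVec_mem β)) (rootVec_mem α)
            hne, zero_smul]
      · simp)
  exact (hG u).symm.trans (Submodule.eq_top_iff'.1 htop u)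

lemma sum_negRoot {A : Type*} [AddCommMonoid A] (g : H.root → A) :
    ∑ α, g α = ∑ α ∈ posRoots b, (g α + g (negRoot α)) := by
  classical
  rw [Finset.sum_add_distrib, ← Finset.sum_filter_add_sum_filter_not Finset.univ
    (fun α => 0 < b.height α), posRoots]
  congr 1
  refine Finset.sum_nbij' negRoot negRoot ?_ ?_ (fun α _ => negRoot_negRoot α)
    (fun α _ => negRoot_negRoot α) (fun α _ => by rw [negRoot_negRoot])
  · intro α hα
    have := b.height_ne_zero α
    simp only [Finset.mem_filter, Finset.mem_univ, true_and, height_negRoot] at hα ⊢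
    omega
  · intro α hα
    simp only [Finset.mem_filter, Finset.mem_univ, true_and, height_negRoot] at hα ⊢
    omega

variable {V : Type*} [AddCommGroup V] [Module K V] [LieRingModule L V] [LieModule K L V]

variable (V) in
/-- The Casimir operator. -/
def casOp : Module.End K V := ∑ j, toEnd K L V (famX b j) * toEnd K L V (famY b j)

lemma casOp_apply (m : V) : casOp b V m = ∑ j, ⁅famX b j, ⁅famY b j, m⁆⁆ := by
  simp [casOp, LinearMap.sum_apply]

variable {b}

lemma casOp_highest [IsIrreducible K L V] {lam : Dual K H} {v : V} (hv : IsHighestWeight b lam v)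
    (m : V) : casOp b V m = (kform lam lam + 2 * kform lam (rho b)) • m := by
  set c := kform lam lam + 2 * kform lam (rho b) with hc
  let S : LieSubmodule K L V :=
    { LinearMap.eqLocus (casOp b V) (c • LinearMap.id) with
      lie_mem := fun {z m} hm => by
        replace hm : casOp b V m = c • m := hm
        show casOp b V ⁅z, m⁆ = c • ⁅z, m⁆
        rw [casOp_apply, ← lie_casimir_comm _ _ (famX_expand b) (famY_expand b), ← casOp_apply, hm,
          lie_smul] }
  have hroot : ∀ α ∈ posRoots b, ⁅rootVec α, ⁅dualVec α, v⁆⁆ = kform lam (rt α) • v := by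
    intro α hα
    rw [leibniz_lie, hv.raise α ((mem_posRoots b).1 hα) _ (rootVec_mem α), lie_zero, add_zero,
      lie_rootVec_dualVec, hv.weight]
    rfl
  have hneg : ∀ α ∈ posRoots b, ⁅rootVec (negRoot α), ⁅dualVec (negRoot α), v⁆⁆ = 0 := by
    intro α hα
    have h := dualVec_mem (negRoot α)
    rw [negRoot_negRoot] at h
    rw [hv.raise α ((mem_posRoots b).1 hα) _ h, lie_zero]
  have hvS : v ∈ S := by
    show casOp b V v = c • v
    rw [casOp_apply, Fintype.sum_sum_type]
    have h1 : ∀ i, ⁅famX b (Sum.inl i), ⁅famY b (Sum.inl i), v⁆⁆ =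
        (lam (b.toCoweightBasis i) * lam (dualCoweight b i)) • v := fun i => by
      show ⁅(b.toCoweightBasis i : L), ⁅(dualCoweight b i : L), v⁆⁆ = _
      rw [hv.weight, lie_smul, hv.weight, smul_smul, mul_comm]
    rw [Finset.sum_congr rfl (fun i _ => h1 i), ← Finset.sum_smul, ← kform_eq_sum_coweight,
      sum_negRoot b (fun α => ⁅famX b (Sum.inr α), ⁅famY b (Sum.inr α), v⁆⁆)]
    have h2 : ∀ α ∈ posRoots b, ⁅famX b (Sum.inr α), ⁅famY b (Sum.inr α), v⁆⁆ +
        ⁅famX b (Sum.inr (negRoot α)), ⁅famY b (Sum.inr (negRoot α)), v⁆⁆ =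
          kform lam (rt α) • v := fun α hα => by
      show ⁅rootVec α, ⁅dualVec α, v⁆⁆ + ⁅rootVec (negRoot α), ⁅dualVec (negRoot α), v⁆⁆ = _
      rw [hroot α hα, hneg α hα, add_zero]
    rw [Finset.sum_congr rfl h2, ← Finset.sum_smul, ← add_smul, hc, rho, kform_smul_right,
      ← mul_assoc, mul_inv_cancel₀ two_ne_zero, one_mul,
      show kform lam (∑ α ∈ posRoots b, rt α) = ∑ α ∈ posRoots b, kform lam (rt α) by
        simp [kform]]
  rcases IsSimpleOrder.eq_bot_or_eq_top S with h | h
  · rw [h, LieSubmodule.mem_bot] at hvS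
    exact absurd hvS hv.ne_zero
  · exact (h ▸ LieSubmodule.mem_top m : m ∈ S)

variable {κ : Type*} [Fintype κ] (B : WeightBasis κ H V)

/-- The weightwise trace of `y x` for a root. -/
def rootTrace (α : H.root) : WRing H :=
  wtrace B (toEnd K L V (dualVec α) * toEnd K L V (rootVec α))

lemma wtrace_rootVec_dualVec (α : H.root) :
    wtrace B (toEnd K L V (rootVec α) * toEnd K L V (dualVec α)) =
      rootTrace B α + pd (tElt (rt α)) (formalChar H V) := by
  have h : toEnd K L V (rootVec α) * toEnd K L V (dualVec α) =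
      toEnd K L V (dualVec α) * toEnd K L V (rootVec α) + toEnd K L V (tElt (rt α) : L) := by
    rw [← lie_rootVec_dualVec α, LieHom.map_lie, LieRing.of_associative_ring_bracket]
    abel
  rw [h, map_add, pd, wtrace_of_scalar B (A := toEnd K L V (tElt (rt α) : L))
    (φ := fun μ => μ (tElt (rt α))) (fun i => B.hasWeight i (tElt (rt α))), rootTrace]

lemma rootTrace_eq (α : H.root) :
    rootTrace B α = ee (-rt α) * (rootTrace B α + pd (tElt (rt α)) (formalChar H V)) := by
  rw [← wtrace_rootVec_dualVec, rootTrace]
  refine wtrace_mul_comm B ?_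
  have := shiftsBy_toEnd (V := V) (dualVec_mem α)
  rwa [rt_negRoot] at this

/-- The differential identity given by the Casimir operator. -/
theorem casimir_identity [IsIrreducible K L V] {lam : Dual K H} {v : V}
    (hv : IsHighestWeight b lam v) :
    lap (formalChar H V) + 2 • pd (tElt (rho b)) (formalChar H V) +
        2 • ∑ α ∈ posRoots b, rootTrace B α =
      (kform lam lam + 2 * kform lam (rho b)) • formalChar H V := by
  classical
  have hscal : ∀ i, casOp b V (B.bv i) = (kform lam lam + 2 * kform lam (rho b)) • B.bv i :=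
    fun i => casOp_highest hv _
  have hc := wtrace_of_scalar B (φ := fun _ => kform lam lam + 2 * kform lam (rho b)) hscal
  have hconst : ∀ c : K, scale (fun _ => c) (formalChar H V) = c • formalChar H V := fun c => by
    rw [formalChar_eq B, map_sum, Finset.smul_sum]
    exact Finset.sum_congr rfl fun i _ => scale_ee _ _
  rw [← hconst, ← hc, casOp, map_sum, Fintype.sum_sum_type]
  have hH : ∑ i, wtrace B (toEnd K L V (famX b (Sum.inl i)) * toEnd K L V (famY b (Sum.inl i))) =
      lap (formalChar H V) := by
    rw [← map_sum, lap]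
    refine wtrace_of_scalar B fun j => ?_
    rw [LinearMap.sum_apply, kform_eq_sum_coweight b, Finset.sum_smul]
    refine Finset.sum_congr rfl fun i _ => ?_
    show ⁅(b.toCoweightBasis i : L), ⁅(dualCoweight b i : L), B.bv j⁆⁆ = _
    rw [B.hasWeight, lie_smul, B.hasWeight, smul_smul, mul_comm]
  rw [hH, sum_negRoot b (fun α => wtrace B (toEnd K L V (famX b (Sum.inr α)) *
    toEnd K L V (famY b (Sum.inr α))))]
  have hpair : ∀ α ∈ posRoots b,
      wtrace B (toEnd K L V (famX b (Sum.inr α)) * toEnd K L V (famY b (Sum.inr α))) +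
        wtrace B (toEnd K L V (famX b (Sum.inr (negRoot α))) *
          toEnd K L V (famY b (Sum.inr (negRoot α)))) =
      2 • rootTrace B α + pd (tElt (rt α)) (formalChar H V) := fun α _ => by
    show wtrace B (toEnd K L V (rootVec α) * toEnd K L V (dualVec α)) +
      wtrace B (toEnd K L V (rootVec (negRoot α)) * toEnd K L V (dualVec (negRoot α))) = _
    have h2 : toEnd K L V (rootVec (negRoot α)) * toEnd K L V (dualVec (negRoot α)) =
        toEnd K L V (dualVec α) * toEnd K L V (rootVec α) := by
      rw [dualVec, dualVec, negRoot_negRoot, pairing'_negRoot, map_smul, map_smul, smul_mul_assoc,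
        mul_smul_comm]
    rw [wtrace_rootVec_dualVec, h2, two_nsmul, rootTrace]
    abel
  have hrho : 2 • pd (tElt (rho b)) (formalChar H V) =
      ∑ α ∈ posRoots b, pd (tElt (rt α)) (formalChar H V) := by
    rw [formalChar_eq B, map_sum, Finset.smul_sum]
    simp only [map_sum, pd, scale_ee]
    rw [Finset.sum_comm]
    refine Finset.sum_congr rfl fun i _ => ?_
    rw [← Finset.sum_smul, rho, map_smul, map_smul, smul_eq_mul, two_nsmul, ← add_smul, ← two_mul,
      ← mul_assoc, mul_inv_cancel₀ two_ne_zero, one_mul, map_sum, map_sum]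
  rw [Finset.sum_congr rfl hpair, Finset.sum_add_distrib, ← Finset.smul_sum, hrho]
  abel

end FA.WeylChar
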