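import Fermat.Agent.WeylChar.Casimir

/-!
# Weyl's character formula

The product of the formal character and the denominator is anti-invariant and an eigenvector of
the Laplacian, so it is the alternant of the highest weight shifted by the half sum.
-/

set_option autoImplicit false
set_option linter.unusedSectionVars false

noncomputable section

namespace FA.WeylChar

open LieModule Module LieAlgebra LieAlgebra.IsKilling FA.HighestWeight

universe u v

variable {K : Type u} {L : Type v} [Field K] [CharZero K] [LieRing L] [LieAlgebra K L]
  [IsKilling K L] [FiniteDimensional K L]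
  {H : LieSubalgebra K L} [H.IsCartanSubalgebra] [IsTriangularizable K H L]
  (b : (rootSystem H).Base)

lemma lap_mul (a c : WRing H) :
    lap (a * c) = lap a * c + a * lap c +
      2 • ∑ i, pd (b.toCoweightBasis i) a * pd (dualCoweight b i) c := by
  induction a using AddMonoidAlgebra.induction_linear with
  | zero => simp
  | add a a' ha ha' =>
    simp only [add_mul, map_add, ha, ha', Finset.sum_add_distrib, smul_add]
    abel
  | single μ r =>
    induction c using AddMonoidAlgebra.induction_linear with
    | zero => simp
    | add c c' hc hc' =>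
      simp only [mul_add, map_add, hc, hc', Finset.sum_add_distrib, smul_add]
      abel
    | single ν s =>
      have hsum : ∑ i, pd (b.toCoweightBasis i) (AddMonoidAlgebra.single μ r) *
          pd (dualCoweight b i) (AddMonoidAlgebra.single ν s) =
            AddMonoidAlgebra.single (μ + ν) (kform μ ν * (r * s)) := by
        rw [kform_eq_sum_coweight b μ ν, Finset.sum_mul]
        refine wring_ext fun x => ?_
        simp only [pd, scale_single, AddMonoidAlgebra.single_mul_single, AddMonoidAlgebra.coeff_sum,
          Finsupp.finsetSum_apply, AddMonoidAlgebra.coeff_single]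
        rw [← Finsupp.finsetSum_apply, ← Finsupp.single_finset_sum]
        congr 2
        exact Finset.sum_congr rfl fun i _ => by ring
      rw [hsum, two_nsmul]
      simp only [lap, AddMonoidAlgebra.single_mul_single, scale_single, ← AddMonoidAlgebra.single_add]
      congr 1
      rw [kform_add_left, kform_add_right, kform_add_right, kform_comm ν μ]
      ring

lemma sum_apply_smul_pd (φ : Dual K H) (a : WRing H) :
    ∑ i, φ (b.toCoweightBasis i) • pd (dualCoweight b i) a = pd (tElt φ) a := by
  induction a using AddMonoidAlgebra.induction_linear with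
  | zero => simp
  | add a c ha hc => simp only [map_add, smul_add, Finset.sum_add_distrib, ha, hc]
  | single μ r =>
    simp only [pd, scale_single, AddMonoidAlgebra.smul_single']
    refine wring_ext fun x => ?_
    simp only [AddMonoidAlgebra.coeff_sum, AddMonoidAlgebra.coeff_single]
    rw [← Finsupp.single_finset_sum]
    congr 2
    rw [show μ (tElt φ) = kform φ μ from kform_comm μ φ, kform_eq_sum_coweight b φ μ,
      Finset.sum_mul]
    exact Finset.sum_congr rfl fun i _ => by ring

lemma pd_qfac (x : H) (α : H.root) :
    pd x (qfac α) =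
      (rt α x / 2) • qfac α + rt α x • ee (-((2 : K)⁻¹ • rt α)) := by
  rw [qfac, map_sub, pd, scale_ee, scale_ee, LinearMap.neg_apply, LinearMap.smul_apply, smul_eq_mul]
  module

lemma pd_qden [DecidableEq H.root] (x : H) :
    pd x (qden b) = rho b x • qden b +
      ∑ α ∈ posRoots b, rt α x •
        (ee (-((2 : K)⁻¹ • rt α)) * ∏ β ∈ (posRoots b).erase α, qfac β) := by
  rw [qden, pd_prod, rho, LinearMap.smul_apply, LinearMap.sum_apply, smul_eq_mul, Finset.mul_sum,
    Finset.sum_smul, ← Finset.sum_add_distrib]
  refine Finset.sum_congr rfl fun α hα => ?_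
  rw [pd_qfac, add_mul, smul_mul_assoc, smul_mul_assoc, Finset.mul_prod_erase _ _ hα,
    div_eq_inv_mul]

variable {V : Type*} [AddCommGroup V] [Module K V] [LieRingModule L V] [LieModule K L V]
  {b}
variable [IsIrreducible K L V] {lam : Dual K H} {v : V}
  {κ : Type*} [Fintype κ] (B : WeightBasis κ H V)

include B in
lemma lap_formalChar_mul (hv : IsHighestWeight b lam v) :
    lap (formalChar H V * qden b) =
      kform (lam + rho b) (lam + rho b) • (formalChar H V * qden b) := by
  classical
  set χ := formalChar H V with hχ
  have hq : lap (qden b) = kform (rho b) (rho b) • qden b := by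
    rw [weyl_denominator, lap_alternant b]
  have hcross : ∑ i, pd (b.toCoweightBasis i) (qden b) * pd (dualCoweight b i) χ =
      qden b * (pd (tElt (rho b)) χ + ∑ α ∈ posRoots b, rootTrace B α) := by
    simp only [pd_qden b, add_mul, Finset.sum_add_distrib, Finset.sum_mul, smul_mul_assoc]
    rw [Finset.sum_comm]
    simp only [← mul_smul_comm, ← Finset.mul_sum, sum_apply_smul_pd]
    rw [mul_add]
    congr 1
    rw [Finset.mul_sum]
    refine Finset.sum_congr rfl fun α hα => ?_
    have hP : pd (tElt (rt α)) χ = (ee (rt α) - 1) * rootTrace B α := by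
      have h := congrArg (fun y => ee (rt α) * y) (rootTrace_eq B α)
      simp only [← mul_assoc, ee_mul, add_neg_cancel, ee_zero, one_mul] at h
      rw [sub_mul, one_mul, h, add_sub_cancel_left]
    rw [hP, qden, ← Finset.mul_prod_erase _ _ hα, qfac]
    have e1 : ee (-((2 : K)⁻¹ • rt α)) * ee (rt α) = ee ((2 : K)⁻¹ • rt α) := by
      rw [ee_mul]
      congr 1
      module
    rw [← e1]
    ring
  rw [mul_comm χ, lap_mul b, hcross, hq, smul_mul_assoc]
  have hcas := casimir_identity B hv
  rw [← hχ] at hcas
  rw [show kform (lam + rho b) (lam + rho b) =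
      (kform lam lam + 2 * kform lam (rho b)) + kform (rho b) (rho b) by
    rw [kform_add_left, kform_add_right, kform_add_right, kform_comm (rho b) lam]; ring,
    add_smul, ← mul_smul_comm (kform lam lam + 2 * kform lam (rho b)), ← hcas]
  simp only [two_nsmul, mul_add]
  abel

include B in
lemma isLeading_formalChar [FiniteDimensional K V] (hv : IsHighestWeight b lam v) :
    IsLeading b (formalChar H V) lam := by
  constructor
  · rw [coeff_formalChar B]
    have h : wSpace V lam = K ∙ v := by
      refine le_antisymm (fun x hx => ?_) ((Submodule.span_singleton_le_iff_mem _ _).2 hv.weight)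
      obtain ⟨c, hc⟩ := exists_smul_of_weight hv.weight hx (mem_wordSpan_of_irreducible hv x)
      exact hc ▸ Submodule.smul_mem _ c (Submodule.mem_span_singleton_self v)
    rw [h, finrank_span_singleton hv.ne_zero, Nat.cast_one]
  · intro μ hμ
    rw [coeff_formalChar B] at hμ
    have hne : wSpace V μ ≠ ⊥ := fun h => hμ (by rw [h, finrank_bot, Nat.cast_zero])
    obtain ⟨x, hx, hx0⟩ := (Submodule.ne_bot_iff _).1 hne
    obtain ⟨l, rfl⟩ := exists_word_of_weight hv.weight hx (mem_wordSpan_of_irreducible hv x) hx0
    exact sub_wordWeight_mem_posCone b lam l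

lemma coeff_eq_zero_of_lap {F : WRing H} {c : K} (hF : lap F = c • F) {μ : Dual K H}
    (hμ : F.coeff μ ≠ 0) : kform μ μ = c := by
  have hscale : ∀ (φ : Dual K H → K) (G : WRing H) (x : Dual K H),
      (scale φ G).coeff x = φ x * G.coeff x := by
    intro φ G x
    classical
    induction G using AddMonoidAlgebra.induction_linear with
    | zero => simp
    | add a a' ha ha' =>
      rw [map_add, AddMonoidAlgebra.coeff_add, AddMonoidAlgebra.coeff_add, Finsupp.add_apply,
        Finsupp.add_apply, ha, ha', mul_add]
    | single y r =>
      rw [scale_single, AddMonoidAlgebra.coeff_single, AddMonoidAlgebra.coeff_single,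
        Finsupp.single_apply, Finsupp.single_apply]
      split_ifs with h
      · subst h; rfl
      · rw [mul_zero]
  have h := congrArg (fun G => G.coeff μ) hF
  simp only [lap, hscale, AddMonoidAlgebra.coeff_smul, Finsupp.smul_apply, smul_eq_mul] at h
  exact mul_right_cancel₀ hμ h

/-- **Weyl's character formula.** -/
theorem weyl_character_formula [FiniteDimensional K V] (hv : IsHighestWeight b lam v)
    (hdom : IsDominantIntegral b lam) :
    formalChar H V * alternant H (rho b) = alternant H (lam + rho b) := by
  obtain ⟨κ', _, B', hB'⟩ := exists_weightBasis hv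
  have hint : ∀ i, IsWeightLattice (B'.wt i) := fun i => by
    obtain ⟨l, hl⟩ := hB' i
    exact hl ▸ isWeightLattice_wordWeight b hdom.isWeightLattice l
  have hs := isStrictDominant_add_rho b hdom
  set F := formalChar H V * qden b with hF
  have hanti : IsAntiInv b F := fun α hα => by
    rw [hF, map_mul, wact_formalChar B' hint, isAntiInv_qden b α hα, mul_neg]
  have hlead : IsLeading b F (lam + rho b) := (isLeading_formalChar B' hv).mul (isLeading_qden b)
  have hsupp : ∀ μ, F.coeff μ ≠ 0 → IsWeightLattice μ ∧ lam + rho b - μ ∈ posCone b := fun μ hμ => by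
    refine ⟨?_, hlead.2 μ hμ⟩
    rw [← sub_sub_cancel (lam + rho b) μ, sub_eq_add_neg]
    exact hs.isDominantIntegral.isWeightLattice.add
      (isWeightLattice_of_mem_posCone b (hlead.2 μ hμ)).neg
  have key := eq_smul_alternant hanti hs hsupp fun μ hμ hμs => by
    have hnorm := coeff_eq_zero_of_lap (lap_formalChar_mul B' hv) hμ
    obtain ⟨-, hγ⟩ := hsupp μ hμ
    have hsum : kform (lam + rho b) (lam + rho b - μ) + kform μ (lam + rho b - μ) = 0 := by
      rw [kform_sub_right, kform_sub_right, kform_comm μ (lam + rho b), hnorm]
      ring
    rcases isPosRat_kform_of_mem_posCone b hs hγ with h0 | h1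
    · exact (sub_eq_zero.1 h0).symm
    · rcases isPosRat_kform_of_mem_posCone b hμs hγ with h0 | h2
      · exact (sub_eq_zero.1 h0).symm
      · exact absurd hsum (h1.add h2).ne_zero
  rw [← weyl_denominator b, ← hF, key, hlead.1, one_smul]

end FA.WeylChar
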