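import Fermat.Agent.WeylChar.Character
import Fermat.Agent.HighestWeight.Main

/-!
# Weyl's dimension formula

Sending `e^μ` to `exp ((μ, ν) t)` turns the character formula into an identity of power series,
whose lowest coefficients give the dimension.
-/

set_option autoImplicit false
set_option linter.unusedSectionVars false

noncomputable section

namespace FA.WeylChar

open LieModule Module LieAlgebra LieAlgebra.IsKilling FA.HighestWeight PowerSeries

attribute [local instance 100] LieRing.ofAssociativeRing

universe u v

variable {K : Type u} {L : Type v} [Field K] [CharZero K] [LieRing L] [LieAlgebra K L]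
  [IsKilling K L] [FiniteDimensional K L]
  {H : LieSubalgebra K L} [H.IsCartanSubalgebra] [IsTriangularizable K H L]

/-- The monoid homomorphism `e^μ ↦ exp ((μ, ν) t)`. -/
def expHom (ν : Dual K H) : Multiplicative (Dual K H) →* PowerSeries K where
  toFun μ := rescale (kform μ.toAdd ν) (exp K)
  map_one' := by
    rw [toAdd_one, show kform (0 : Dual K H) ν = 0 from rfl, rescale_zero_apply, constantCoeff_exp,
      map_one]
  map_mul' μ μ' := by rw [toAdd_mul, kform_add_left, exp_mul_exp_eq_exp_add]

/-- Evaluation `e^μ ↦ exp ((μ, ν) t)`. -/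
def evalExp (ν : Dual K H) : WRing H →ₐ[K] PowerSeries K :=
  AddMonoidAlgebra.lift K (PowerSeries K) (Dual K H) (expHom ν)

lemma evalExp_single (ν μ : Dual K H) (r : K) :
    evalExp ν (AddMonoidAlgebra.single μ r) = r • rescale (kform μ ν) (exp K) := by
  rw [evalExp, AddMonoidAlgebra.lift_single]
  rfl

variable (b : (rootSystem H).Base)

include b in
lemma evalExp_alternant (μ ν : Dual K H) :
    evalExp ν (alternant H μ) = evalExp μ (alternant H ν) := by
  have := finite_weylW b
  let := Fintype.ofFinite (weylW H)
  rw [alternant_eq_sum (b := b), alternant_eq_sum (b := b), map_sum, map_sum,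
    ← Equiv.sum_comp (Equiv.inv (weylW H))]
  refine Finset.sum_congr rfl fun w _ => ?_
  rw [evalExp_single, evalExp_single, Equiv.inv_apply, wsgn_inv b]
  congr 3
  rw [← kform_weylW b w, ← LinearEquiv.mul_apply, ← Subgroup.coe_mul, mul_inv_cancel,
    kform_comm]
  rfl

lemma exists_evalExp_qden (ν : Dual K H) :
    ∃ g : PowerSeries K, evalExp ν (qden b) = X ^ (posRoots b).card * g ∧
      constantCoeff g = ∏ α ∈ posRoots b, kform (rt α) ν := by
  classical
  have h : ∀ α : H.root, ∃ g : PowerSeries K, evalExp ν (qfac α) = X * g ∧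
      constantCoeff g = kform (rt α) ν := by
    intro α
    have hf : evalExp ν (qfac α) = rescale (kform (rt α) ν / 2) (exp K) -
        rescale (-(kform (rt α) ν / 2)) (exp K) := by
      have e2 : kform (-((2 : K)⁻¹ • rt α)) ν = -(kform (rt α) ν / 2) := by
        rw [← neg_one_smul K ((2 : K)⁻¹ • rt α), kform_smul_left, kform_smul_left]; ring
      rw [qfac, map_sub, ee, ee, evalExp_single, evalExp_single, one_smul, one_smul, e2,
        kform_smul_left, inv_mul_eq_div]
    have h0 : constantCoeff (evalExp ν (qfac α)) = 0 := by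
      rw [hf, map_sub, ← coeff_zero_eq_constantCoeff_apply, ← coeff_zero_eq_constantCoeff_apply,
        coeff_rescale, coeff_rescale]
      simp
    obtain ⟨g, hg⟩ := X_dvd_iff.2 h0
    refine ⟨g, hg, ?_⟩
    have h1 := congrArg (coeff 1) hg
    rw [coeff_succ_X_mul, coeff_zero_eq_constantCoeff_apply, hf, map_sub, coeff_rescale,
      coeff_rescale, coeff_exp] at h1
    rw [← h1]
    simp
  choose g hg hg0 using h
  refine ⟨∏ α ∈ posRoots b, g α, ?_, ?_⟩
  · rw [qden, map_prod, Finset.prod_congr rfl fun α _ => hg α, Finset.prod_mul_distrib,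
      Finset.prod_const]
  · rw [map_prod]
    exact Finset.prod_congr rfl fun α _ => hg0 α

variable {b} {V : Type*} [AddCommGroup V] [Module K V] [LieRingModule L V] [LieModule K L V]
  [IsIrreducible K L V] [FiniteDimensional K V] {lam : Dual K H} {v : V}

/-- **Weyl's dimension formula.** -/
theorem weyl_dimension_formula (hv : IsHighestWeight b lam v) (hdom : IsDominantIntegral b lam) :
    (finrank K V : K) * ∏ α ∈ posRoots b, rho b (crt α) =
      ∏ α ∈ posRoots b, (lam + rho b) (crt α) := by
  obtain ⟨κ, _, B, -⟩ := exists_weightBasis hv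
  have hχ : constantCoeff (evalExp (rho b) (formalChar H V)) = (finrank K V : K) := by
    rw [formalChar_eq B, map_sum, map_sum, finrank_eq_card_basis B.bv]
    simp only [ee, evalExp_single, one_smul]
    simp [← coeff_zero_eq_constantCoeff_apply, coeff_rescale]
  have key := congrArg (evalExp (rho b)) (weyl_character_formula hv hdom)
  rw [map_mul, evalExp_alternant b (lam + rho b), ← weyl_denominator b] at key
  obtain ⟨g, hg, hg0⟩ := exists_evalExp_qden b (rho b)
  obtain ⟨g', hg', hg0'⟩ := exists_evalExp_qden b (lam + rho b)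
  rw [hg, hg', mul_left_comm] at key
  have h := congrArg constantCoeff (mul_left_cancel₀ (pow_ne_zero _ X_ne_zero) key)
  rw [map_mul, hχ, hg0, hg0'] at h
  simp only [kform_comm (rt _), kform_rt_right, Finset.prod_mul_distrib, ← mul_assoc] at h
  exact mul_right_cancel₀ (Finset.prod_ne_zero_iff.2 fun α _ =>
    div_ne_zero (rlen_ne_zero α) two_ne_zero) h

omit [IsIrreducible K L V] in
lemma prod_rho_crt_ne_zero : ∏ α ∈ posRoots b, rho b (crt α) ≠ 0 := by
  refine Finset.prod_ne_zero_iff.2 fun α hα => ?_
  have h := (isPosRat_kform_rt b (isStrictDominant_rho b) ((mem_posRoots b).1 hα)).ne_zero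
  rw [kform_rt_right] at h
  exact left_ne_zero_of_mul h

/-- Multiplicities are invariant under the Weyl group. -/
theorem finrank_wSpace_weylW (hv : IsHighestWeight b lam v) (hdom : IsDominantIntegral b lam)
    (w : weylW H) (μ : Dual K H) :
    finrank K (wSpace V (w.1 μ)) = finrank K (wSpace V μ) := by
  obtain ⟨κ, _, B, hB⟩ := exists_weightBasis hv
  have hint : ∀ i, IsWeightLattice (B.wt i) := fun i => by
    obtain ⟨l, hl⟩ := hB i
    exact hl ▸ isWeightLattice_wordWeight b hdom.isWeightLattice l
  obtain ⟨l, -, hl⟩ := exists_simple_word b w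
  rw [← hl]
  clear hl
  induction l with
  | nil => rfl
  | cons α l ih => rw [wordProd_cons_apply, finrank_wSpace_refl' B hint, ih]

section SlTwo

variable (b)

omit [IsIrreducible K L V] in
lemma posRoots_eq_singleton (h3 : finrank K L ≤ 3) {α : H.root} (hα : α ∈ b.support) :
    posRoots b = {α} := by
  refine Finset.eq_singleton_iff_unique_mem.2
    ⟨(mem_posRoots b).2 (RootPairing.Base.isPos_of_mem_support hα), fun β hβ => ?_⟩
  by_contra hne
  let χ : Fin 4 → (H → K) := ![0, α.1, (negRoot α).1, β.1]
  let x : Fin 4 → L := ![(crt α : L), rootVec α, rootVec (negRoot α), rootVec β]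
  have hχ : Function.Injective χ := by
    have hval : ∀ i, χ i (heightElt b) = ![(0 : K), 1, -1, rt β (heightElt b)] i := by
      intro i
      fin_cases i
      · rfl
      · exact apply_heightElt_of_mem b hα
      · show rt (negRoot α) (heightElt b) = -1
        rw [rt_negRoot, LinearMap.neg_apply, apply_heightElt_of_mem b hα]
      · rfl
    obtain ⟨n, hn, hn'⟩ := exists_height_pos b ((mem_posRoots b).1 hβ)
    have hβα : (β.1 : H → K) ≠ α.1 := fun h =>
      hne ((rootSystem H).root.injective (LinearMap.ext fun z => congr_fun h z))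
    have hn0 : (n : K) ≠ 0 := Nat.cast_ne_zero.2 hn.ne'
    have hn1 : (n : K) ≠ -1 := by
      rw [ne_eq, eq_neg_iff_add_eq_zero]
      exact_mod_cast Nat.succ_ne_zero n
    intro i j hij
    have h := congr_fun hij (heightElt b)
    rw [hval, hval, hn'] at h
    fin_cases i <;> fin_cases j <;> first
      | rfl
      | exact absurd hij hβα
      | exact absurd hij.symm hβα
      | exact absurd h hn0
      | exact absurd h.symm hn0
      | exact absurd h hn1
      | exact absurd h.symm hn1
      | (norm_num at h; done)
  have hx : ∀ i, x i ∈ rootSpace H (χ i) := by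
    intro i
    fin_cases i
    · exact cartan_mem_rootSpace (crt α)
    · exact rootVec_mem α
    · exact rootVec_mem (negRoot α)
    · exact rootVec_mem β
  have hx0 : ∀ i, x i ≠ 0 := by
    intro i
    fin_cases i
    · obtain ⟨e, f, t, -, -⟩ := exists_triple α
      exact t.h_ne_zero
    · exact rootVec_ne_zero α
    · exact rootVec_ne_zero (negRoot α)
    · exact rootVec_ne_zero β
  have hind : iSupIndep fun i => (rootSpace H (χ i)).toSubmodule :=
    LieSubmodule.iSupIndep_toSubmodule.2 ((iSupIndep_genWeightSpace K H L).comp hχ)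
  have := (hind.linearIndependent _ hx hx0).fintype_card_le_finrank
  simp at this
  omega

/-- In dimension three the irreducible module with value `n` on the simple coroot has dimension
`n + 1`. -/
theorem finrank_of_rank_one (h3 : finrank K L ≤ 3) {α : H.root} (hα : α ∈ b.support) {n : ℕ}
    (hv : IsHighestWeight b lam v) (hdom : IsDominantIntegral b lam) (hn : lam (crt α) = (n : K)) :
    finrank K V = n + 1 := by
  have h := weyl_dimension_formula hv hdom
  rw [posRoots_eq_singleton b h3 hα, Finset.prod_singleton, Finset.prod_singleton,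
    LinearMap.add_apply, rho_crt b hα, hn, mul_one, ← Nat.cast_succ, Nat.cast_inj] at h
  exact h

end SlTwo

open LieAlgebra.SpecialLinear in
/-- The special linear algebra of degree two has irreducible modules of every positive dimension. -/
theorem sl_two_exists_irreducible_of_finrank (F : Type u) [Field F] [CharZero F] [IsAlgClosed F]
    (n : ℕ) :
    ∃ (W : Type u) (_ : AddCommGroup W) (_ : Module F W) (_ : LieRingModule (sl (Fin 2) F) W)
      (_ : LieModule F (sl (Fin 2) F) W),
      IsIrreducible F (sl (Fin 2) F) W ∧ FiniteDimensional F W ∧ finrank F W = n + 1 := by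
  classical
  have := sl_two_hasTrivialRadical F
  have : Nontrivial (sl (Fin 2) F) :=
    ⟨⟨single 0 1 (by decide) 1, 0, fun h => by
      have := congrArg (fun z : sl (Fin 2) F => z.1 0 1) h
      simp at this⟩⟩
  have h3 : finrank F (sl (Fin 2) F) ≤ 3 := by
    have hlt : (sl (Fin 2) F).toSubmodule ≠ ⊤ := fun h => by
      have h1 : (1 : Matrix (Fin 2) (Fin 2) F) ∈ (sl (Fin 2) F).toSubmodule := h ▸ Submodule.mem_top
      have h2 : Matrix.traceLinearMap (Fin 2) F F 1 = 0 := h1
      simp at h2
    have := Submodule.finrank_lt hlt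
    have e : finrank F (sl (Fin 2) F) = finrank F (sl (Fin 2) F).toSubmodule := rfl
    rw [Module.finrank_matrix, Module.finrank_self, Fintype.card_fin] at this
    omega
  obtain ⟨x, hx⟩ := LieAlgebra.exists_isCartanSubalgebra_engel F (sl (Fin 2) F)
  have := hx
  obtain ⟨b⟩ := (rootSystem (LieSubalgebra.engel F x)).nonempty_base
  obtain ⟨α, hα⟩ := support_nonempty_of_nontrivial b
  let lam : Dual F (LieSubalgebra.engel F x) := b.toCoweightBasis.constr F fun _ => (n : F)
  have hlam : ∀ β ∈ b.support, lam (crt β) = (n : F) := fun β hβ => by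
    rw [show crt β = b.toCoweightBasis ⟨β, hβ⟩ from (b.toCoweightBasis_apply ⟨β, hβ⟩).symm,
      Basis.constr_basis]
  have hdom : IsDominantIntegral b lam := fun β hβ => ⟨n, hlam β hβ⟩
  obtain ⟨W, i₁, i₂, i₃, i₄, hirr, hfin, w, hw⟩ := exists_finiteDimensional_irreducible b lam hdom
  exact ⟨W, i₁, i₂, i₃, i₄, hirr, hfin, finrank_of_rank_one b h3 hα hw hdom (hlam α hα)⟩

end FA.WeylChar
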