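import Fermat.Agent.HighestWeight.Finite

/-!
# The form dual to the Killing form

The form on functionals of the Cartan subalgebra dual to the Killing form is reflection invariant,
positive rational on roots and on the cone of positive roots, and the half sum of the positive roots
takes the value one on every simple coroot.
-/

set_option autoImplicit false
set_option linter.unusedSectionVars false

noncomputable section

namespace FA.WeylChar

open LieModule Module LieAlgebra LieAlgebra.IsKilling FA.HighestWeight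

universe u v

variable {K : Type u} {L : Type v} [Field K] [CharZero K] [LieRing L] [LieAlgebra K L]
  [IsKilling K L] [FiniteDimensional K L]
  {H : LieSubalgebra K L} [H.IsCartanSubalgebra] [IsTriangularizable K H L]

/-- The element of the Cartan subalgebra representing a functional. -/
def tElt : Dual K H ≃ₗ[K] H := (cartanEquivDual H).symm

lemma apply_eq_traceForm (μ : Dual K H) (x : H) :
    μ x = traceForm K H L (tElt μ) x := by
  exact (LinearMap.congr_fun ((cartanEquivDual H).apply_symm_apply μ) x).symm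

/-- The form dual to the Killing form. -/
def kform (μ ν : Dual K H) : K := μ (tElt ν)

lemma kform_comm (μ ν : Dual K H) : kform μ ν = kform ν μ := by
  rw [kform, kform, apply_eq_traceForm μ, apply_eq_traceForm ν, traceForm_comm]

lemma kform_add_left (μ₁ μ₂ ν : Dual K H) : kform (μ₁ + μ₂) ν = kform μ₁ ν + kform μ₂ ν := rfl

lemma kform_add_right (μ ν₁ ν₂ : Dual K H) : kform μ (ν₁ + ν₂) = kform μ ν₁ + kform μ ν₂ := by
  simp [kform]

lemma kform_sub_left (μ₁ μ₂ ν : Dual K H) : kform (μ₁ - μ₂) ν = kform μ₁ ν - kform μ₂ ν := rfl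

lemma kform_sub_right (μ ν₁ ν₂ : Dual K H) : kform μ (ν₁ - ν₂) = kform μ ν₁ - kform μ ν₂ := by
  simp [kform]

lemma kform_smul_left (c : K) (μ ν : Dual K H) : kform (c • μ) ν = c * kform μ ν := rfl

lemma kform_smul_right (c : K) (μ ν : Dual K H) : kform μ (c • ν) = c * kform μ ν := by
  simp [kform]

lemma kform_eq_sum (μ ν : Dual K H) :
    kform μ ν = ∑ β : H.root, kform (rt β) μ * kform (rt β) ν := by
  have h := apply_eq_traceForm μ (tElt ν)
  have h' : traceForm K H L (tElt μ) (tElt ν) =
      ((killingForm K L).restrict H) (tElt μ) (tElt ν) := rfl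
  rw [restrict_killingForm_eq_sum] at h'
  rw [kform, h, h']
  simp only [LinearMap.sum_apply, LinearMap.smulRight_apply, LinearMap.smul_apply, smul_eq_mul]
  rw [← Finset.sum_coe_sort]
  rfl

/-- The squared length of a root. -/
def rlen (α : H.root) : K := kform (rt α) (rt α)

lemma rlen_ne_zero (α : H.root) : rlen α ≠ 0 :=
  root_apply_cartanEquivDual_symm_ne_zero (H.isNonZero_coe_root α)

lemma crt_eq_smul (α : H.root) : crt α = (2 * (rlen α)⁻¹) • tElt (rt α) := by
  show coroot α.1 = _
  rw [coroot, two_nsmul, ← add_smul, ← two_mul]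
  rfl

lemma tElt_rt (α : H.root) : tElt (rt α) = (rlen α / 2) • crt α := by
  have := rlen_ne_zero α
  rw [crt_eq_smul, smul_smul]
  field_simp
  rw [one_smul]

lemma kform_rt_right (μ : Dual K H) (α : H.root) :
    kform μ (rt α) = μ (crt α) * (rlen α / 2) := by
  rw [kform, tElt_rt, map_smul, smul_eq_mul, mul_comm]

lemma kform_refl' (α : H.root) (μ ν : Dual K H) :
    kform (refl' α μ) (refl' α ν) = kform μ ν := by
  have := rlen_ne_zero α
  simp only [refl', kform_sub_left, kform_sub_right, kform_smul_left, kform_smul_right,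
    kform_rt_right, kform_comm (rt α) ν, LinearMap.sub_apply, LinearMap.smul_apply, smul_eq_mul,
    rt_crt_self]
  ring

lemma exists_nat_rlen (α : H.root) :
    ∃ N : ℕ, 0 < N ∧ rlen α * (N : K) = 4 := by
  choose z hz using fun β : H.root => isWeightLattice_rt β α
  set N : ℕ := ∑ β, (z β).natAbs ^ 2 with hN
  have hsum : rlen α = (rlen α / 2) ^ 2 * (N : K) := by
    have hN' : (N : K) = ∑ β, (z β : K) ^ 2 := by
      rw [hN]
      push_cast
      refine Finset.sum_congr rfl fun β _ => ?_
      rw [← Int.cast_natCast, ← Int.cast_pow, Int.natAbs_sq, Int.cast_pow]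
    conv_lhs => rw [rlen, kform_eq_sum]
    rw [hN', Finset.mul_sum]
    refine Finset.sum_congr rfl fun β _ => ?_
    rw [kform_rt_right, hz]
    ring
  have h4 : rlen α * (N : K) = 4 := by
    have := rlen_ne_zero α
    apply mul_left_cancel₀ this
    linear_combination -4 * hsum
  refine ⟨N, Nat.pos_of_ne_zero fun h => ?_, h4⟩
  rw [h, Nat.cast_zero, mul_zero] at h4
  exact (by norm_num : (4 : K) ≠ 0) h4.symm

/-- Positive rational scalars. -/
def IsPosRat (x : K) : Prop := ∃ q : ℚ, 0 < q ∧ (q : K) = x

lemma isPosRat_rlen (α : H.root) : IsPosRat (rlen α) := by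
  obtain ⟨N, hN, h⟩ := exists_nat_rlen α
  refine ⟨4 / N, by positivity, ?_⟩
  have : (N : K) ≠ 0 := Nat.cast_ne_zero.2 hN.ne'
  push_cast
  rw [← h]
  field_simp

lemma IsPosRat.add {x y : K} (hx : IsPosRat x) (hy : IsPosRat y) : IsPosRat (x + y) := by
  obtain ⟨p, hp, rfl⟩ := hx
  obtain ⟨q, hq, rfl⟩ := hy
  exact ⟨p + q, add_pos hp hq, by push_cast; rfl⟩

lemma IsPosRat.ne_zero {x : K} (hx : IsPosRat x) : x ≠ 0 := by
  obtain ⟨p, hp, rfl⟩ := hx
  exact_mod_cast hp.ne'

lemma IsPosRat.not_nonpos {x : K} (hx : IsPosRat x) {q : ℚ} (hq : 0 ≤ q) : x ≠ -(q : K) := by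
  obtain ⟨p, hp, rfl⟩ := hx
  intro h
  rw [← Rat.cast_neg, Rat.cast_inj] at h
  linarith

lemma exists_rat_kform_rt {μ : Dual K H} (hμ : IsWeightLattice μ) (β : H.root) :
    ∃ q : ℚ, (q : K) = kform (rt β) μ := by
  obtain ⟨z, hz⟩ := hμ β
  obtain ⟨r, -, hr⟩ := isPosRat_rlen β
  exact ⟨z * r / 2, by rw [kform_comm, kform_rt_right, hz, ← hr]; push_cast; ring⟩

/-- The form is positive definite on the weight lattice. -/
lemma isNonnegRat_kform_self {γ : Dual K H} (hγ : IsWeightLattice γ) :
    IsNonnegRat (kform γ γ) := by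
  choose q hq using exists_rat_kform_rt hγ
  exact ⟨∑ β, q β * q β, Finset.sum_nonneg fun β _ => mul_self_nonneg _, by
    rw [kform_eq_sum]; push_cast; simp [hq]⟩

variable (b : (rootSystem H).Base)

include b in
lemma eq_zero_of_kform_self {γ : Dual K H} (hγ : IsWeightLattice γ) {q : ℚ} (hq : 0 ≤ q)
    (h : kform γ γ = -(q : K)) : γ = 0 := by
  choose p hp using exists_rat_kform_rt hγ
  rw [kform_eq_sum] at h
  have h0 : ∑ β, p β * p β + q = 0 := by
    have : ((∑ β, p β * p β + q : ℚ) : K) = 0 := by
      push_cast; simp only [hp]; rw [h]; ring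
    exact_mod_cast this
  have hz : ∀ β, p β = 0 := fun β => by
    have h1 := Finset.single_le_sum (f := fun β => p β * p β)
      (fun β _ => mul_self_nonneg (p β)) (Finset.mem_univ β)
    exact mul_self_eq_zero.1 (le_antisymm (by linarith) (mul_self_nonneg _))
  refine eq_of_forall_crt b fun α _ => ?_
  have := hp α
  rw [hz, Rat.cast_zero, kform_comm, kform_rt_right, eq_comm, mul_eq_zero] at this
  rw [LinearMap.zero_apply]
  exact this.resolve_right (div_ne_zero (rlen_ne_zero α) two_ne_zero)

/-- The positive roots. -/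
def posRoots : Finset H.root := Finset.univ.filter fun α => 0 < b.height α

lemma mem_posRoots {α : H.root} : α ∈ posRoots b ↔ b.IsPos α := by
  rw [posRoots, Finset.mem_filter, RootPairing.Base.isPos_iff]
  simp

/-- The cone spanned by the positive roots. -/
def posCone : AddSubmonoid (Dual K H) := AddSubmonoid.closure (rt '' (posRoots b : Set H.root))

lemma rt_mem_posCone {α : H.root} (hα : b.IsPos α) : rt α ∈ posCone b :=
  AddSubmonoid.subset_closure ⟨α, (mem_posRoots b).2 hα, rfl⟩

lemma sub_wordWeight_mem_posCone (lam : Dual K H) (l : List (NegRoot b)) :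
    lam - wordWeight b lam l ∈ posCone b := by
  induction l with
  | nil => simp [wordWeight]
  | cons α l ih =>
    rw [show lam - wordWeight b lam (α :: l) = (lam - wordWeight b lam l) + rt (negRoot α.1) by
      rw [wordWeight, rt_negRoot]; abel]
    exact add_mem ih (rt_mem_posCone b ((isPos_negRoot_iff b α.1).2 α.2))

lemma isWeightLattice_of_mem_posCone {γ : Dual K H} (hγ : γ ∈ posCone b) :
    IsWeightLattice γ := by
  induction hγ using AddSubmonoid.closure_induction with
  | mem x hx =>
    obtain ⟨α, -, rfl⟩ := hx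
    exact isWeightLattice_rt α
  | zero => exact fun α => ⟨0, by simp⟩
  | add x y _ _ hx hy => exact hx.add hy

lemma exists_height_of_mem_posCone {γ : Dual K H} (hγ : γ ∈ posCone b) :
    ∃ k : ℕ, γ (heightElt b) = (k : K) ∧ (k = 0 → γ = 0) := by
  induction hγ using AddSubmonoid.closure_induction with
  | mem x hx =>
    obtain ⟨α, hα, rfl⟩ := hx
    obtain ⟨n, hn, hn'⟩ := exists_height_pos b ((mem_posRoots b).1 hα)
    exact ⟨n, hn', fun h => by omega⟩
  | zero => exact ⟨0, by simp, fun _ => rfl⟩
  | add x y _ _ hx hy =>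
    obtain ⟨m, hm, hm0⟩ := hx
    obtain ⟨n, hn, hn0⟩ := hy
    refine ⟨m + n, by rw [LinearMap.add_apply, hm, hn, Nat.cast_add], fun h => ?_⟩
    rw [hm0 (by omega), hn0 (by omega), add_zero]

/-- Strictly dominant integral functionals. -/
def IsStrictDominant (μ : Dual K H) : Prop :=
  ∀ α ∈ b.support, ∃ n : ℕ, μ (crt α) = (n + 1 : K)

lemma IsStrictDominant.isDominantIntegral {b : (rootSystem H).Base} {μ : Dual K H}
    (h : IsStrictDominant b μ) : IsDominantIntegral b μ := fun α hα => by
  obtain ⟨n, hn⟩ := h α hα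
  exact ⟨n + 1, by rw [hn, Nat.cast_succ]⟩

lemma isPosRat_kform_rt {μ : Dual K H} (hμ : IsStrictDominant b μ) {β : H.root}
    (hβ : b.IsPos β) : IsPosRat (kform μ (rt β)) := by
  have simple : ∀ α ∈ b.support, IsPosRat (kform μ (rt α)) := by
    intro α hα
    obtain ⟨n, hn⟩ := hμ α hα
    obtain ⟨r, hr, hr'⟩ := isPosRat_rlen α
    exact ⟨(n + 1) * r / 2, by positivity, by rw [kform_rt_right, hn, ← hr']; push_cast; ring⟩
  refine hβ.induction_on_add (p := fun β => IsPosRat (kform μ (rt β))) simple ?_
  intro i j k hk hi hj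
  rw [show rt k = rt i + rt j from hk, kform_add_right]
  exact hi.add (simple j hj)

lemma isPosRat_kform_of_mem_posCone {μ : Dual K H} (hμ : IsStrictDominant b μ) {γ : Dual K H}
    (hγ : γ ∈ posCone b) : γ = 0 ∨ IsPosRat (kform μ γ) := by
  induction hγ using AddSubmonoid.closure_induction with
  | mem x hx =>
    obtain ⟨α, hα, rfl⟩ := hx
    exact Or.inr (isPosRat_kform_rt b hμ ((mem_posRoots b).1 hα))
  | zero => exact Or.inl rfl
  | add x y _ _ hx hy =>
    rcases hx with rfl | hx
    · rwa [zero_add]
    rcases hy with rfl | hy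
    · exact Or.inr (by rwa [add_zero])
    exact Or.inr (by rw [kform_add_right]; exact hx.add hy)

lemma isNonnegRat_kform_of_mem_posCone {μ : Dual K H} (hμ : IsDominantIntegral b μ)
    {γ : Dual K H} (hγ : γ ∈ posCone b) : IsNonnegRat (kform μ γ) := by
  have simple : ∀ α ∈ b.support, IsNonnegRat (kform μ (rt α)) := by
    intro α hα
    obtain ⟨n, hn⟩ := hμ α hα
    obtain ⟨r, hr, hr'⟩ := isPosRat_rlen α
    exact ⟨n * r / 2, by positivity, by rw [kform_rt_right, hn, ← hr']; push_cast; ring⟩
  induction hγ using AddSubmonoid.closure_induction with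
  | mem x hx =>
    obtain ⟨β, hβ, rfl⟩ := hx
    refine ((mem_posRoots b).1 hβ).induction_on_add
      (p := fun β => IsNonnegRat (kform μ (rt β))) simple ?_
    intro i j k hk hi hj
    rw [show rt k = rt i + rt j from hk, kform_add_right]
    exact hi.add (simple j hj)
  | zero => exact ⟨0, le_rfl, by simp [kform]⟩
  | add x y _ _ hx hy => rw [kform_add_right]; exact hx.add hy

/-- The half sum of the positive roots. -/
def rho : Dual K H := (2 : K)⁻¹ • ∑ α ∈ posRoots b, rt α

lemma refl'_rt (α β : H.root) :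
    refl' α (rt β) = rt ((rootSystem H).reflectionPerm α β) :=
  ((rootSystem H).root_reflectionPerm α β).symm

lemma refl'_add (α : H.root) (μ ν : Dual K H) :
    refl' α (μ + ν) = refl' α μ + refl' α ν := by
  simp only [refl', LinearMap.add_apply, add_smul]; abel

lemma refl'_smul (α : H.root) (c : K) (μ : Dual K H) :
    refl' α (c • μ) = c • refl' α μ := by
  simp only [refl', LinearMap.smul_apply, smul_eq_mul, mul_smul, smul_sub]

lemma refl'_rt_self (α : H.root) : refl' α (rt α) = -rt α := by
  rw [refl', rt_crt_self]; module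

lemma refl'_refl' (α : H.root) (μ : Dual K H) : refl' α (refl' α μ) = μ := by
  simp only [refl', LinearMap.sub_apply, LinearMap.smul_apply, rt_crt_self, smul_eq_mul]
  module

lemma refl'_sum (α : H.root) {ι : Type*} (s : Finset ι) (f : ι → Dual K H) :
    refl' α (∑ i ∈ s, f i) = ∑ i ∈ s, refl' α (f i) := by
  classical
  induction s using Finset.induction_on with
  | empty => simp [refl']
  | insert a s ha ih => rw [Finset.sum_insert ha, Finset.sum_insert ha, refl'_add, ih]

/-- A simple reflection permutes the other positive roots. -/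
lemma reflectionPerm_mem_erase [DecidableEq H.root] {α β : H.root} (hα : α ∈ b.support)
    (hβ : β ∈ (posRoots b).erase α) :
    (rootSystem H).reflectionPerm α β ∈ (posRoots b).erase α := by
  obtain ⟨hne, hβ⟩ := Finset.mem_erase.1 hβ
  rw [mem_posRoots] at hβ
  refine Finset.mem_erase.2 ⟨fun h => ?_, (mem_posRoots b).2 (hβ.reflectionPerm hα hne)⟩
  have h' := congrArg rt h
  rw [← refl'_rt] at h'
  have h1 : rt β = rt (negRoot α) := by
    rw [← refl'_refl' α (rt β), h', refl'_rt_self, rt_negRoot]
  have h2 : β = negRoot α := (rootSystem H).root.injective h1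
  rw [h2, isPos_negRoot_iff] at hβ
  exact hβ (RootPairing.Base.isPos_of_mem_support hα)

lemma rho_crt {α : H.root} (hα : α ∈ b.support) : rho b (crt α) = 1 := by
  classical
  have hmem : α ∈ posRoots b := (mem_posRoots b).2 (RootPairing.Base.isPos_of_mem_support hα)
  have hperm : ∑ β ∈ (posRoots b).erase α, refl' α (rt β) =
      ∑ β ∈ (posRoots b).erase α, rt β :=
    Finset.sum_nbij' (fun β => (rootSystem H).reflectionPerm α β)
      (fun β => (rootSystem H).reflectionPerm α β)
      (fun β hβ => reflectionPerm_mem_erase b hα hβ) (fun β hβ => reflectionPerm_mem_erase b hα hβ)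
      (fun β _ => (rootSystem H).reflectionPerm_self α β)
      (fun β _ => (rootSystem H).reflectionPerm_self α β) (fun β _ => refl'_rt α β)
  have h : refl' α (rho b) = rho b - rt α := by
    rw [rho, refl'_smul, refl'_sum, ← Finset.add_sum_erase _ _ hmem,
      ← Finset.add_sum_erase (posRoots b) (fun β => rt β) hmem, hperm, refl'_rt_self]
    module
  rw [refl', sub_right_inj] at h
  have h2 := LinearMap.congr_fun h (crt α)
  rw [LinearMap.smul_apply, rt_crt_self, smul_eq_mul, mul_eq_right₀ two_ne_zero] at h2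
  exact h2

lemma isStrictDominant_rho : IsStrictDominant b (rho b) := fun α hα =>
  ⟨0, by rw [rho_crt b hα, Nat.cast_zero, zero_add]⟩

lemma isStrictDominant_add_rho {lam : Dual K H} (h : IsDominantIntegral b lam) :
    IsStrictDominant b (lam + rho b) := fun α hα => by
  obtain ⟨n, hn⟩ := h α hα
  exact ⟨n, by rw [LinearMap.add_apply, hn, rho_crt b hα]⟩

end FA.WeylChar
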