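import Fermat.Agent.WeylChar.Form

/-!
# The Weyl group

The group generated by the reflections is generated by the simple ones, is finite, has determinant
`±1`, preserves the form, and acts freely on strictly dominant functionals.
-/

set_option autoImplicit false
set_option linter.unusedSectionVars false

noncomputable section

namespace FA.WeylChar

open LieModule Module LieAlgebra LieAlgebra.IsKilling FA.HighestWeight

universe u v

variable {K : Type u} {L : Type v} [Field K] [CharZero K] [LieRing L] [LieAlgebra K L]
  [IsKilling K L] [FiniteDimensional K L]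
  {H : LieSubalgebra K L} [H.IsCartanSubalgebra] [IsTriangularizable K H L]

variable (H) in
/-- The Weyl group, as a group of linear equivalences of functionals. -/
def weylW : Subgroup (Dual K H ≃ₗ[K] Dual K H) :=
  Subgroup.closure (Set.range (rootSystem H).reflection)

/-- The reflection in a root as a linear equivalence. -/
def sref (α : H.root) : Dual K H ≃ₗ[K] Dual K H := (rootSystem H).reflection α

lemma sref_apply (α : H.root) (μ : Dual K H) : sref α μ = refl' α μ := rfl

/-- The product of the reflections in a list of roots. -/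
def wordProd (l : List H.root) : Dual K H ≃ₗ[K] Dual K H := (l.map sref).prod

lemma wordProd_append (l m : List H.root) : wordProd (l ++ m) = wordProd l * wordProd m := by
  simp [wordProd]

lemma wordProd_cons (α : H.root) (l : List H.root) :
    wordProd (α :: l) = sref α * wordProd l := by
  simp [wordProd]

lemma wordProd_cons_apply (α : H.root) (l : List H.root) (μ : Dual K H) :
    wordProd (α :: l) μ = refl' α (wordProd l μ) := by
  rw [wordProd_cons, LinearEquiv.mul_apply, sref_apply]

lemma sref_reflectionPerm (α β : H.root) :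
    sref ((rootSystem H).reflectionPerm α β) = sref α * sref β * sref α :=
  (rootSystem H).reflection_reflectionPerm

lemma sref_mul_self (α : H.root) : sref α * sref α = 1 := by
  ext μ h
  rw [LinearEquiv.mul_apply, sref_apply, sref_apply, refl'_refl']
  rfl

lemma exists_wordProd_rt (l : List H.root) (β : H.root) :
    ∃ γ : H.root, wordProd l (rt β) = rt γ ∧ sref γ = wordProd l * sref β * (wordProd l)⁻¹ := by
  induction l with
  | nil => exact ⟨β, by simp [wordProd], by simp [wordProd]⟩
  | cons α l ih =>
    obtain ⟨γ, hγ, hγ'⟩ := ih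
    refine ⟨(rootSystem H).reflectionPerm α γ, by rw [wordProd_cons_apply, hγ, refl'_rt], ?_⟩
    rw [sref_reflectionPerm, hγ', wordProd_cons, mul_inv_rev,
      show (sref α)⁻¹ = sref α from inv_eq_of_mul_eq_one_right (sref_mul_self α)]
    group

lemma kform_wordProd (l : List H.root) (μ ν : Dual K H) :
    kform (wordProd l μ) (wordProd l ν) = kform μ ν := by
  induction l with
  | nil => simp [wordProd]
  | cons α l ih => rw [wordProd_cons_apply, wordProd_cons_apply, kform_refl', ih]

variable (b : (rootSystem H).Base)

lemma exists_simple_word_sref (α : H.root) :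
    ∃ l : List H.root, (∀ x ∈ l, x ∈ b.support) ∧ wordProd l = sref α := by
  refine b.induction_reflect α
    (p := fun α => ∃ l : List H.root, (∀ x ∈ l, x ∈ b.support) ∧ wordProd l = sref α) ?_
    (fun i hi => ⟨[i], by simpa using hi, by simp [wordProd]⟩) ?_
  · rintro i ⟨l, hl, hl'⟩
    refine ⟨l, hl, hl'.trans ?_⟩
    rw [sref_reflectionPerm, sref_mul_self, one_mul]
  · rintro i j ⟨l, hl, hl'⟩ hj
    refine ⟨j :: l ++ [j], ?_, ?_⟩
    · intro x hx
      simp only [List.cons_append, List.mem_cons, List.mem_append, List.not_mem_nil, or_false] at hx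
      rcases hx with rfl | hx | rfl
      exacts [hj, hl x hx, hj]
    · rw [wordProd_append, wordProd_cons, hl', sref_reflectionPerm]
      simp [wordProd]

lemma sref_mem_weylW (α : H.root) : sref α ∈ weylW H := Subgroup.subset_closure ⟨α, rfl⟩

lemma wordProd_mem_weylW (l : List H.root) : wordProd l ∈ weylW H := by
  induction l with
  | nil => simp [wordProd, one_mem]
  | cons α l ih => rw [wordProd_cons]; exact mul_mem (sref_mem_weylW α) ih

lemma exists_simple_word (w : weylW H) :
    ∃ l : List H.root, (∀ x ∈ l, x ∈ b.support) ∧ wordProd l = w.1 := by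
  obtain ⟨w, hw⟩ := w
  induction hw using Subgroup.closure_induction with
  | mem x hx =>
    obtain ⟨α, rfl⟩ := hx
    exact exists_simple_word_sref b α
  | one => exact ⟨[], by simp, by simp [wordProd]⟩
  | mul x y _ _ hx hy =>
    obtain ⟨l, hl, rfl⟩ := hx
    obtain ⟨m, hm, rfl⟩ := hy
    exact ⟨l ++ m, fun z hz => (List.mem_append.1 hz).elim (hl z) (hm z), wordProd_append l m⟩
  | inv x _ hx =>
    obtain ⟨l, hl, rfl⟩ := hx
    refine ⟨l.reverse, fun z hz => hl z (List.mem_reverse.1 hz), eq_inv_of_mul_eq_one_left ?_⟩
    clear hl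
    induction l with
    | nil => simp [wordProd]
    | cons α l ih =>
      rw [List.reverse_cons, wordProd_append, wordProd_cons α l, mul_assoc,
        ← mul_assoc (wordProd [α]), show wordProd [α] * sref α = 1 by
          simp [wordProd, sref_mul_self], one_mul]
      exact ih (wordProd_mem_weylW l)

/-- The element of the Weyl group given by a reflection. -/
def srefW (α : H.root) : weylW H := ⟨sref α, sref_mem_weylW α⟩

include b in
lemma exists_root_of_mem_weylW (w : weylW H) (β : H.root) :
    ∃ γ : H.root, w.1 (rt β) = rt γ := by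
  obtain ⟨l, -, hl⟩ := exists_simple_word b w
  obtain ⟨γ, hγ, -⟩ := exists_wordProd_rt l β
  exact ⟨γ, hl ▸ hγ⟩

include b in
lemma kform_weylW (w : weylW H) (μ ν : Dual K H) : kform (w.1 μ) (w.1 ν) = kform μ ν := by
  obtain ⟨l, -, hl⟩ := exists_simple_word b w
  rw [← hl, kform_wordProd]

lemma span_rt : Submodule.span K (Set.range (rt : H.root → Dual K H)) = ⊤ :=
  RootPairing.IsRootSystem.span_root_eq_top (P := rootSystem H)

include b in
lemma finite_weylW : Finite (weylW H) := by
  choose f hf using fun (w : weylW H) (β : H.root) => exists_root_of_mem_weylW b w β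
  refine Finite.of_injective f fun w w' h => Subtype.ext (LinearEquiv.toLinearMap_injective ?_)
  refine LinearMap.ext_on span_rt ?_
  rintro _ ⟨β, rfl⟩
  show w.1 (rt β) = w'.1 (rt β)
  rw [hf, hf, h]

lemma det_sref (α : H.root) : LinearMap.det (sref α : Dual K H →ₗ[K] Dual K H) = -1 := by
  have h : (sref α : Dual K H →ₗ[K] Dual K H) =
      LinearMap.transvection (-(Dual.eval K H (crt α))) (rt α) := LinearMap.ext fun μ => by
    show refl' α μ = μ + (-(μ (crt α))) • rt α
    rw [refl']
    module
  rw [h, LinearMap.transvection.det, LinearMap.neg_apply, Dual.eval_apply, rt_crt_self]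
  norm_num

/-- The sign of a Weyl group element: its determinant. -/
def wsgn (w : weylW H) : K := LinearMap.det (w.1 : Dual K H →ₗ[K] Dual K H)

lemma wsgn_mul (w w' : weylW H) : wsgn (w * w') = wsgn w * wsgn w' := by
  rw [wsgn, wsgn, wsgn, ← map_mul]
  rfl

lemma wsgn_one : wsgn (1 : weylW H) = 1 := by
  rw [wsgn]
  exact map_one LinearMap.det

lemma wsgn_srefW (α : H.root) : wsgn (srefW α) = -1 := det_sref α

include b in
lemma wsgn_mul_self (w : weylW H) : wsgn w * wsgn w = 1 := by
  obtain ⟨l, -, hl⟩ := exists_simple_word b w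
  rw [wsgn, ← hl]
  clear hl
  induction l with
  | nil =>
    show LinearMap.det (LinearMap.id : Dual K H →ₗ[K] Dual K H) * _ = 1
    rw [LinearMap.det_id, one_mul]
    exact LinearMap.det_id
  | cons α l ih =>
    rw [wordProd_cons, show ((sref α * wordProd l : Dual K H ≃ₗ[K] Dual K H) :
      Dual K H →ₗ[K] Dual K H) = (sref α : Dual K H →ₗ[K] Dual K H) *
        (wordProd l : Dual K H →ₗ[K] Dual K H) from rfl, map_mul, det_sref]
    linear_combination ih

include b in
lemma wsgn_inv (w : weylW H) : wsgn w⁻¹ = wsgn w := by
  have h : wsgn w⁻¹ * wsgn w = 1 := by rw [← wsgn_mul, inv_mul_cancel, wsgn_one]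
  have h' := wsgn_mul_self b w
  linear_combination wsgn w * h - wsgn w⁻¹ * h'

/-- An element preserving the positive roots is trivial. -/
lemma eq_one_of_pos_of_simple_word (l : List H.root) (hl : ∀ x ∈ l, x ∈ b.support)
    (hpos : ∀ β : H.root, b.IsPos β → ∃ γ : H.root, b.IsPos γ ∧ wordProd l (rt β) = rt γ) :
    wordProd l = 1 := by
  induction hn : l.length using Nat.strong_induction_on generalizing l with
  | _ n ih =>
    subst hn
    rcases List.eq_nil_or_concat' l with rfl | ⟨l₀, α, rfl⟩
    · simp [wordProd]
    have hα : α ∈ b.support := hl α (by simp)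
    have key : ∀ m : List H.root, (∀ x ∈ m, x ∈ b.support) →
        (∃ γ : H.root, ¬ b.IsPos γ ∧ wordProd m (rt α) = rt γ) →
        ∃ m' : List H.root, m'.length + 1 = m.length ∧ (∀ x ∈ m', x ∈ b.support) ∧
          wordProd (m ++ [α]) = wordProd m' := by
      intro m
      induction m with
      | nil =>
        rintro - ⟨γ, hγ, h⟩
        have : α = γ := (rootSystem H).root.injective (show rt α = rt γ by simpa [wordProd] using h)
        exact absurd (this ▸ RootPairing.Base.isPos_of_mem_support hα) hγ
      | cons i m ihm =>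
        rintro hm ⟨γ, hγ, h⟩
        have hi : i ∈ b.support := hm i (by simp)
        have hm' : ∀ x ∈ m, x ∈ b.support := fun x hx => hm x (by simp [hx])
        obtain ⟨δ, hδ, hδ'⟩ := exists_wordProd_rt m α
        by_cases hpδ : b.IsPos δ
        · have hδi : δ = i := by
            by_contra hne
            have hp := hpδ.reflectionPerm hi hne
            rw [wordProd_cons_apply, hδ, refl'_rt] at h
            exact hγ ((rootSystem H).root.injective h ▸ hp)
          refine ⟨m, by simp, hm', ?_⟩
          rw [← hδi, wordProd_append, wordProd_cons, hδ', inv_mul_cancel_right,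
            mul_assoc, show wordProd [α] = sref α by simp [wordProd], sref_mul_self, mul_one]
        · obtain ⟨m', hlen, hsupp, heq⟩ := ihm hm' ⟨δ, hpδ, hδ⟩
          refine ⟨i :: m', by simp [hlen], ?_, ?_⟩
          · intro x hx
            rcases List.mem_cons.1 hx with rfl | hx
            exacts [hi, hsupp x hx]
          · rw [List.cons_append, wordProd_cons, heq, wordProd_cons]
    obtain ⟨γ, hγ, hγ'⟩ := hpos α (RootPairing.Base.isPos_of_mem_support hα)
    have hneg : wordProd l₀ (rt α) = rt (negRoot γ) := by
      rw [wordProd_append, LinearEquiv.mul_apply, show wordProd [α] (rt α) = -rt α by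
        rw [wordProd_cons_apply]; simp [wordProd, refl'_rt_self], map_neg] at hγ'
      rw [rt_negRoot, ← hγ', neg_neg]
    obtain ⟨m', hlen, hsupp, heq⟩ := key l₀ (fun x hx => hl x (by simp [hx]))
      ⟨negRoot γ, by rw [isPos_negRoot_iff]; exact not_not.2 hγ, hneg⟩
    rw [heq]
    exact ih m'.length (by simp [← hlen]) m' hsupp (fun β hβ => heq ▸ hpos β hβ) rfl

/-- The Weyl group acts freely on strictly dominant functionals. -/
theorem eq_one_of_fix {ν : Dual K H} (hν : IsStrictDominant b ν) {w : weylW H}
    (h : w.1 ν = ν) : w = 1 := by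
  obtain ⟨l, hl, hw⟩ := exists_simple_word b w
  refine Subtype.ext (hw.symm.trans (eq_one_of_pos_of_simple_word b l hl fun β hβ => ?_))
  obtain ⟨γ, hγ, -⟩ := exists_wordProd_rt l β
  refine ⟨γ, ?_, hγ⟩
  by_contra hneg
  obtain ⟨p, hp, hp'⟩ := isPosRat_kform_rt b hν hβ
  obtain ⟨q, hq, hq'⟩ := isPosRat_kform_rt b hν ((isPos_negRoot_iff b γ).2 hneg)
  rw [← kform_wordProd l, hw, h, ← hw, hγ] at hp'
  rw [rt_negRoot, ← neg_one_smul K, kform_smul_right, ← hp', neg_one_mul, ← Rat.cast_neg,
    Rat.cast_inj] at hq'
  linarith

end FA.WeylChar
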