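import Fermat.Agent.WeylChar.Group

/-!
# The group ring of functionals and the Weyl denominator formula

Anti-invariant elements supported below a strictly dominant functional are multiples of its
alternant. The product `∏ (e^(α/2) - e^(-α/2))` is one, so it is the alternant of the half sum of
the positive roots.
-/

set_option autoImplicit false
set_option linter.unusedSectionVars false

noncomputable section

namespace FA.WeylChar

open LieModule Module LieAlgebra LieAlgebra.IsKilling FA.HighestWeight

universe u v

variable {K : Type u} {L : Type v} [Field K] [CharZero K] [LieRing L] [LieAlgebra K L]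
  [IsKilling K L] [FiniteDimensional K L]
  {H : LieSubalgebra K L} [H.IsCartanSubalgebra] [IsTriangularizable K H L]

/-- The group ring of functionals on the Cartan subalgebra. -/
abbrev WRing (H : LieSubalgebra K L) : Type _ := AddMonoidAlgebra K (Dual K H)

/-- The element `e^μ`. -/
def ee (μ : Dual K H) : WRing H := AddMonoidAlgebra.single μ 1

lemma ee_mul (μ ν : Dual K H) : ee μ * ee ν = ee (μ + ν) := by
  rw [ee, ee, ee, AddMonoidAlgebra.single_mul_single, mul_one]

lemma ee_zero : ee (0 : Dual K H) = 1 := rfl

lemma wring_ext {a c : WRing H} (h : ∀ μ, a.coeff μ = c.coeff μ) : a = c :=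
  AddMonoidAlgebra.ext (Finsupp.ext h)

/-- The operator multiplying the coefficient at `μ` by `φ μ`. -/
def scale (φ : Dual K H → K) : WRing H →ₗ[K] WRing H :=
  (AddMonoidAlgebra.coeffLinearEquiv K).symm.toLinearMap ∘ₗ
    (Finsupp.lsum K fun μ => Finsupp.lsingle μ ∘ₗ LinearMap.mulLeft K (φ μ)) ∘ₗ
      (AddMonoidAlgebra.coeffLinearEquiv K).toLinearMap

lemma scale_single (φ : Dual K H → K) (μ : Dual K H) (r : K) :
    scale φ (AddMonoidAlgebra.single μ r) = AddMonoidAlgebra.single μ (φ μ * r) := by
  simp [scale, -Finsupp.single_mul]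

lemma scale_ee (φ : Dual K H → K) (μ : Dual K H) : scale φ (ee μ) = φ μ • ee μ := by
  rw [ee, scale_single, AddMonoidAlgebra.smul_single']

/-- The derivation along an element of the Cartan subalgebra. -/
def pd (x : H) : WRing H →ₗ[K] WRing H := scale fun μ => μ x

/-- The Laplacian of the dual Killing form. -/
def lap : WRing H →ₗ[K] WRing H := scale fun μ => kform μ μ

lemma pd_mul (x : H) (a c : WRing H) : pd x (a * c) = pd x a * c + a * pd x c := by
  induction a using AddMonoidAlgebra.induction_linear with
  | zero => simp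
  | add a a' ha ha' => simp only [add_mul, map_add, ha, ha']; abel
  | single μ r =>
    induction c using AddMonoidAlgebra.induction_linear with
    | zero => simp
    | add c c' hc hc' => simp only [mul_add, map_add, hc, hc']; abel
    | single ν s =>
      simp only [pd, AddMonoidAlgebra.single_mul_single, scale_single,
        ← AddMonoidAlgebra.single_add, LinearMap.add_apply]
      congr 1
      ring

lemma pd_one (x : H) : pd x (1 : WRing H) = 0 := by
  rw [← ee_zero, pd, scale_ee, LinearMap.zero_apply, zero_smul]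

lemma pd_prod {ι : Type*} [DecidableEq ι] (x : H) (f : ι → WRing H) (s : Finset ι) :
    pd x (∏ i ∈ s, f i) = ∑ i ∈ s, pd x (f i) * ∏ j ∈ s.erase i, f j := by
  induction s using Finset.induction_on with
  | empty => simp [pd_one]
  | insert a s ha ih =>
    rw [Finset.prod_insert ha, pd_mul, ih, Finset.sum_insert ha, Finset.erase_insert ha,
      Finset.mul_sum]
    congr 1
    refine Finset.sum_congr rfl fun i hi => ?_
    have hne : a ≠ i := fun h => ha (h ▸ hi)
    rw [Finset.erase_insert_of_ne hne, Finset.prod_insert (by simp [ha]), mul_left_comm]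

/-- The automorphism of the group ring induced by a linear automorphism. -/
def wact (f : Dual K H ≃ₗ[K] Dual K H) : WRing H ≃ₐ[K] WRing H :=
  AddMonoidAlgebra.domCongr K K f.toAddEquiv

lemma wact_ee (f : Dual K H ≃ₗ[K] Dual K H) (μ : Dual K H) : wact f (ee μ) = ee (f μ) :=
  AddMonoidAlgebra.domCongr_single _ _ _

lemma coeff_wact (f : Dual K H ≃ₗ[K] Dual K H) (a : WRing H) (μ : Dual K H) :
    (wact f a).coeff (f μ) = a.coeff μ :=
  (AddMonoidAlgebra.coeff_domCongr _ _ _).trans (congrArg a.coeff (f.symm_apply_apply μ))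

variable (b : (rootSystem H).Base)

/-- An element changing sign under the simple reflections. -/
def IsAntiInv (F : WRing H) : Prop := ∀ α ∈ b.support, wact (sref α) F = -F

variable {b}

lemma IsAntiInv.coeff_refl' {F : WRing H} (hF : IsAntiInv b F) {α : H.root} (hα : α ∈ b.support)
    (μ : Dual K H) : F.coeff (refl' α μ) = -F.coeff μ := by
  have h := coeff_wact (sref α) F μ
  rw [hF α hα, AddMonoidAlgebra.coeff_neg, Finsupp.neg_apply, sref_apply] at h
  linear_combination -h

lemma IsAntiInv.coeff_weylW {F : WRing H} (hF : IsAntiInv b F) (w : weylW H) (μ : Dual K H) :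
    F.coeff (w.1 μ) = wsgn w * F.coeff μ := by
  obtain ⟨l, hl, hl'⟩ := exists_simple_word b w
  rw [wsgn, ← hl']
  clear hl'
  induction l with
  | nil =>
    rw [show wordProd ([] : List H.root) = (1 : Dual K H ≃ₗ[K] Dual K H) from rfl,
      show ((1 : Dual K H ≃ₗ[K] Dual K H) : Dual K H →ₗ[K] Dual K H) = LinearMap.id from rfl,
      LinearMap.det_id, one_mul]
    rfl
  | cons α l ih =>
    rw [wordProd_cons_apply, hF.coeff_refl' (hl α (by simp)),
      ih fun x hx => hl x (by simp [hx]), wordProd_cons,
      show ((sref α * wordProd l : Dual K H ≃ₗ[K] Dual K H) : Dual K H →ₗ[K] Dual K H) =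
        (sref α : Dual K H →ₗ[K] Dual K H) * (wordProd l : Dual K H →ₗ[K] Dual K H) from rfl,
      map_mul, det_sref]
    ring

variable (H) in
/-- The alternant of a functional. -/
def alternant (ν : Dual K H) : WRing H :=
  ∑ᶠ w : weylW H, AddMonoidAlgebra.single (w.1 ν) (wsgn w)

include b in
lemma alternant_eq_sum (ν : Dual K H) [Fintype (weylW H)] :
    alternant H ν = ∑ w : weylW H, AddMonoidAlgebra.single (w.1 ν) (wsgn w) :=
  finsum_eq_sum_of_fintype _

lemma coeff_alternant {ν : Dual K H} (hν : IsStrictDominant b ν) (w : weylW H) :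
    (alternant H ν).coeff (w.1 ν) = wsgn w := by
  classical
  have := finite_weylW b
  let := Fintype.ofFinite (weylW H)
  rw [alternant_eq_sum (b := b), AddMonoidAlgebra.coeff_sum, Finsupp.finsetSum_apply,
    Finset.sum_eq_single w]
  · simp
  · intro w' _ hne
    rw [AddMonoidAlgebra.coeff_single, Finsupp.single_eq_of_ne]
    intro h
    apply hne
    have h1 : (w⁻¹ * w').1 ν = ν := by
      rw [Subgroup.coe_mul, LinearEquiv.mul_apply, ← h]
      exact w.1.symm_apply_apply ν
    rw [← inv_mul_eq_one.1 (eq_one_of_fix b hν h1)]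
  · simp

lemma coeff_alternant_of_notMem {ν μ : Dual K H} (b : (rootSystem H).Base)
    (hμ : ∀ w : weylW H, w.1 ν ≠ μ) : (alternant H ν).coeff μ = 0 := by
  classical
  have := finite_weylW b
  let := Fintype.ofFinite (weylW H)
  rw [alternant_eq_sum (b := b), AddMonoidAlgebra.coeff_sum, Finsupp.finsetSum_apply]
  refine Finset.sum_eq_zero fun w _ => ?_
  rw [AddMonoidAlgebra.coeff_single, Finsupp.single_eq_of_ne (Ne.symm (hμ w))]

/-- An anti-invariant element supported below a strictly dominant functional, with no other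
strictly dominant functional in its support, is a multiple of the alternant. -/
theorem eq_smul_alternant {F : WRing H} {ν : Dual K H} (hF : IsAntiInv b F)
    (hν : IsStrictDominant b ν)
    (hsupp : ∀ μ, F.coeff μ ≠ 0 → IsWeightLattice μ ∧ ν - μ ∈ posCone b)
    (hdom : ∀ μ, F.coeff μ ≠ 0 → IsStrictDominant b μ → μ = ν) :
    F = F.coeff ν • alternant H ν := by
  classical
  have horbit : ∀ μ, F.coeff μ ≠ 0 → ∃ w : weylW H, w.1 ν = μ := by
    suffices ∀ (k : ℕ) (μ : Dual K H), F.coeff μ ≠ 0 → (ν - μ) (heightElt b) = (k : K) →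
        ∃ w : weylW H, w.1 ν = μ by
      intro μ hμ
      obtain ⟨k, hk, -⟩ := exists_height_of_mem_posCone b (hsupp μ hμ).2
      exact this k μ hμ hk
    intro k
    induction k using Nat.strong_induction_on with
    | _ k ih =>
      intro μ hμ hk
      by_cases hs : IsStrictDominant b μ
      · exact ⟨1, (hdom μ hμ hs).symm⟩
      · simp only [IsStrictDominant, not_forall, not_exists] at hs
        obtain ⟨α, hα, hneg⟩ := hs
        obtain ⟨z, hz⟩ := (hsupp μ hμ).1 α
        have hzle : z ≤ 0 := by
          by_contra hpos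
          obtain ⟨n, rfl⟩ : ∃ n : ℕ, z = n + 1 := ⟨(z - 1).toNat, by omega⟩
          exact hneg n (by rw [hz]; push_cast; rfl)
        have hz0 : z ≠ 0 := by
          rintro rfl
          have h := hF.coeff_refl' hα μ
          rw [refl', hz, Int.cast_zero, zero_smul, sub_zero] at h
          exact hμ (add_self_eq_zero.1 (by linear_combination h))
        obtain ⟨n, hn, rfl⟩ : ∃ n : ℕ, 0 < n ∧ z = -(n : ℤ) := ⟨(-z).toNat, by omega, by omega⟩
        have hμ' : F.coeff (refl' α μ) ≠ 0 := by
          rw [hF.coeff_refl' hα, neg_ne_zero]; exact hμ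
        obtain ⟨k', hk', -⟩ := exists_height_of_mem_posCone b (hsupp _ hμ').2
        have hkk : k = k' + n := by
          have : (k : K) = ((k' + n : ℕ) : K) := by
            rw [refl', hz, LinearMap.sub_apply, LinearMap.sub_apply, LinearMap.smul_apply,
              apply_heightElt_of_mem b hα] at hk'
            rw [LinearMap.sub_apply] at hk
            push_cast at hk' ⊢
            simp only [smul_eq_mul, mul_one, sub_neg_eq_add] at hk'
            linear_combination -hk + hk'
          exact_mod_cast this
        obtain ⟨w, hw⟩ := ih k' (by omega) _ hμ' hk'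
        exact ⟨srefW α * w, by
          show sref α (w.1 ν) = μ
          rw [hw, sref_apply, refl'_refl']⟩
  refine wring_ext fun μ => ?_
  rw [AddMonoidAlgebra.coeff_smul, Finsupp.smul_apply, smul_eq_mul]
  by_cases h : ∃ w : weylW H, w.1 ν = μ
  · obtain ⟨w, rfl⟩ := h
    rw [hF.coeff_weylW, coeff_alternant hν, mul_comm]
  · push Not at h
    rw [coeff_alternant_of_notMem b h, mul_zero]
    by_contra hμ
    obtain ⟨w, hw⟩ := horbit μ hμ
    exact h w hw

variable (b)

/-- Coefficient one at the top and everything else below it. -/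
def IsLeading (F : WRing H) (ν : Dual K H) : Prop :=
  F.coeff ν = 1 ∧ ∀ μ, F.coeff μ ≠ 0 → ν - μ ∈ posCone b

variable {b}

lemma posCone_eq_zero_of_add {x y : Dual K H} (hx : x ∈ posCone b) (hy : y ∈ posCone b)
    (h : x + y = 0) : x = 0 ∧ y = 0 := by
  obtain ⟨m, hm, hm0⟩ := exists_height_of_mem_posCone b hx
  obtain ⟨n, hn, hn0⟩ := exists_height_of_mem_posCone b hy
  have := LinearMap.congr_fun h (heightElt b)
  rw [LinearMap.add_apply, hm, hn, LinearMap.zero_apply, ← Nat.cast_add, Nat.cast_eq_zero] at this
  exact ⟨hm0 (by omega), hn0 (by omega)⟩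

lemma IsLeading.mul {F G : WRing H} {ν ν' : Dual K H} (hF : IsLeading b F ν)
    (hG : IsLeading b G ν') : IsLeading b (F * G) (ν + ν') := by
  classical
  constructor
  · rw [AddMonoidAlgebra.coeff_mul, Finsupp.sum, Finset.sum_eq_single ν, Finsupp.sum,
      Finset.sum_eq_single ν', if_pos rfl, hF.1, hG.1, one_mul]
    · intro y _ hne
      rw [if_neg fun h => hne (add_left_cancel h)]
    · simp [hG.1]
    · intro x hx hne
      refine Finset.sum_eq_zero fun y hy => ?_
      dsimp only
      rw [if_neg]
      intro h
      have h0 := posCone_eq_zero_of_add (hF.2 x (Finsupp.mem_support_iff.1 hx))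
        (hG.2 y (Finsupp.mem_support_iff.1 hy))
        (by rw [sub_add_sub_comm, h, sub_self])
      exact hne (sub_eq_zero.1 h0.1).symm
    · simp [hF.1]
  · intro μ hμ
    have h := AddMonoidAlgebra.support_coeff_mul_subset F G (Finsupp.mem_support_iff.2 hμ)
    rw [Finset.mem_add] at h
    obtain ⟨x, hx, y, hy, rfl⟩ := h
    rw [← sub_add_sub_comm]
    exact add_mem (hF.2 x (Finsupp.mem_support_iff.1 hx)) (hG.2 y (Finsupp.mem_support_iff.1 hy))

lemma isLeading_one : IsLeading b (1 : WRing H) 0 := by
  classical
  rw [← ee_zero]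
  refine ⟨by simp [ee], fun μ hμ => ?_⟩
  rw [ee, AddMonoidAlgebra.coeff_single, Finsupp.single_apply] at hμ
  split_ifs at hμ with h
  · subst h; simp
  · exact absurd rfl hμ

lemma IsLeading.prod {ι : Type*} (s : Finset ι) (f : ι → WRing H) (d : ι → Dual K H)
    (h : ∀ i ∈ s, IsLeading b (f i) (d i)) : IsLeading b (∏ i ∈ s, f i) (∑ i ∈ s, d i) := by
  classical
  induction s using Finset.induction_on with
  | empty => exact isLeading_one
  | insert a s ha ih =>
    rw [Finset.prod_insert ha, Finset.sum_insert ha]
    exact (h a (by simp)).mul (ih fun i hi => h i (by simp [hi]))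

variable (b)

/-- The factor `e^(α/2) - e^(-α/2)`. -/
def qfac (α : H.root) : WRing H := ee ((2 : K)⁻¹ • rt α) - ee (-((2 : K)⁻¹ • rt α))

/-- The Weyl denominator. -/
def qden : WRing H := ∏ α ∈ posRoots b, qfac α

lemma isLeading_qfac {α : H.root} (hα : b.IsPos α) :
    IsLeading b (qfac α) ((2 : K)⁻¹ • rt α) := by
  classical
  have h2 : (2 : K)⁻¹ • rt α - -((2 : K)⁻¹ • rt α) = rt α := by module
  have hne : -((2 : K)⁻¹ • rt α) ≠ (2 : K)⁻¹ • rt α := fun h => by
    rw [h, sub_self] at h2
    exact (rootSystem H).ne_zero α h2.symm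
  constructor
  · rw [qfac, ee, ee, AddMonoidAlgebra.coeff_sub, Finsupp.sub_apply,
      AddMonoidAlgebra.coeff_single, AddMonoidAlgebra.coeff_single, Finsupp.single_eq_same,
      Finsupp.single_eq_of_ne (Ne.symm hne), sub_zero]
  · intro μ hμ
    rw [qfac, ee, ee, AddMonoidAlgebra.coeff_sub, Finsupp.sub_apply,
      AddMonoidAlgebra.coeff_single, AddMonoidAlgebra.coeff_single, Finsupp.single_apply,
      Finsupp.single_apply] at hμ
    split_ifs at hμ with h h' h'
    · subst h; simp
    · subst h; simp
    · subst h'; rw [h2]; exact rt_mem_posCone b hα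
    · simp at hμ

lemma isLeading_qden : IsLeading b (qden b) (rho b) := by
  rw [qden, rho, Finset.smul_sum]
  exact IsLeading.prod _ _ _ fun α hα => isLeading_qfac b ((mem_posRoots b).1 hα)

lemma wact_qfac (α β : H.root) :
    wact (sref α) (qfac β) = qfac ((rootSystem H).reflectionPerm α β) := by
  rw [qfac, qfac, map_sub, wact_ee, wact_ee, map_neg, map_smul, sref_apply, refl'_rt]

lemma isAntiInv_qden : IsAntiInv b (qden b) := by
  classical
  intro α hα
  have hmem : α ∈ posRoots b := (mem_posRoots b).2 (RootPairing.Base.isPos_of_mem_support hα)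
  have hperm : ∏ β ∈ (posRoots b).erase α, qfac ((rootSystem H).reflectionPerm α β) =
      ∏ β ∈ (posRoots b).erase α, qfac β :=
    Finset.prod_nbij' (fun β => (rootSystem H).reflectionPerm α β)
      (fun β => (rootSystem H).reflectionPerm α β)
      (fun β hβ => reflectionPerm_mem_erase b hα hβ) (fun β hβ => reflectionPerm_mem_erase b hα hβ)
      (fun β _ => (rootSystem H).reflectionPerm_self α β)
      (fun β _ => (rootSystem H).reflectionPerm_self α β) (fun β _ => rfl)
  have hself : wact (sref α) (qfac α) = -qfac α := by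
    rw [qfac, map_sub, wact_ee, wact_ee, map_neg, map_smul, sref_apply, refl'_rt_self, smul_neg,
      neg_neg, neg_sub]
  rw [qden, ← Finset.mul_prod_erase _ _ hmem, map_mul, map_prod, hself]
  simp only [wact_qfac]
  rw [hperm, neg_mul]

lemma qden_supp {μ : Dual K H} (hμ : (qden b).coeff μ ≠ 0) :
    IsWeightLattice μ ∧ rho b - μ ∈ posCone b := by
  have h := (isLeading_qden b).2 μ hμ
  refine ⟨?_, h⟩
  rw [← sub_sub_cancel (rho b) μ, sub_eq_add_neg]
  exact (isStrictDominant_rho b).isDominantIntegral.isWeightLattice.add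
    (isWeightLattice_of_mem_posCone b h).neg

/-- **The Weyl denominator formula.** -/
theorem weyl_denominator : qden b = alternant H (rho b) := by
  have key := eq_smul_alternant (isAntiInv_qden b) (isStrictDominant_rho b)
    (fun μ hμ => qden_supp b hμ) fun μ hμ hs => by
      obtain ⟨hlat, hγ⟩ := qden_supp b hμ
      have hdom : IsDominantIntegral b (μ - rho b) := fun α hα => by
        obtain ⟨n, hn⟩ := hs α hα
        exact ⟨n, by rw [LinearMap.sub_apply, hn, rho_crt b hα]; ring⟩
      obtain ⟨q, hq, hq'⟩ := isNonnegRat_kform_of_mem_posCone b hdom hγ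
      have h0 : rho b - μ = 0 := by
        refine eq_zero_of_kform_self b (isWeightLattice_of_mem_posCone b hγ) hq ?_
        rw [hq', kform_sub_left (rho b) μ, kform_sub_left μ (rho b)]
        ring
      exact (sub_eq_zero.1 h0).symm
  rwa [(isLeading_qden b).1, one_smul] at key

include b in
lemma lap_alternant {ν : Dual K H} : lap (alternant H ν) = kform ν ν • alternant H ν := by
  have := finite_weylW b
  let := Fintype.ofFinite (weylW H)
  rw [alternant_eq_sum (b := b), map_sum, Finset.smul_sum]
  refine Finset.sum_congr rfl fun w _ => ?_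
  rw [lap, scale_single, kform_weylW b, AddMonoidAlgebra.smul_single']

end FA.WeylChar
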